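import Fermat.Agent.S56.Font.KT.Kummer

/-!
# S56 / Font / KT / H90 : existence of Kummer generators                 (WP KT-H90)

See the item (H90) of the header of `Kummer.lean` for the proof.
-/

set_option autoImplicit false

namespace Fermat.Agent.S56.Font

open MulAction

/-- **Hilbert 90 for characters, by Lagrange resolvents.**  `G` acts on the field `C`, `χ` is a
character of `G` with `G`-fixed values, trivial on the stabiliser of an element `θ` with finite orbit.
Then `χ` is the character of a Kummer generator. -/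
theorem exists_resolvent {G : Type*} [Group G] {C : Type*} [Field C] [MulSemiringAction G C]
    (χ : G → C) (hmul : ∀ x y, χ (x * y) = χ x * χ y) (hne : ∀ x, χ x ≠ 0)
    (hfix : ∀ g x : G, g • χ x = χ x) (θ : C) (hfin : (orbit G θ).Finite)
    (htriv : ∀ x : G, x • θ = θ → χ x = 1) :
    ∃ α : C, α ≠ 0 ∧ ∀ x : G, x • α = χ x * α := by
  classical
  set O : Finset C := hfin.toFinset with hO
  have hmemO : ∀ z, z ∈ O ↔ ∃ g : G, g • θ = z := by
    intro z
    rw [hO, Set.Finite.mem_toFinset]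
    rfl
  have hθO : θ ∈ O := (hmemO θ).2 ⟨1, one_smul _ _⟩
  have hsmulO : ∀ (x : G) {z : C}, z ∈ O → x • z ∈ O := by
    intro x z hz
    obtain ⟨g, rfl⟩ := (hmemO z).1 hz
    exact (hmemO _).2 ⟨x * g, mul_smul _ _ _⟩
  -- a section
  let sec : C → G := fun z => if hz : ∃ g : G, g • θ = z then hz.choose else 1
  have hsec : ∀ z ∈ O, sec z • θ = z := by
    intro z hz
    have hz' := (hmemO z).1 hz
    simp only [sec, dif_pos hz']
    exact hz'.choose_spec
  have hone : χ 1 = 1 := htriv 1 (one_smul _ _)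
  have hinv : ∀ g : G, χ g⁻¹ * χ g = 1 := fun g => by rw [← hmul, inv_mul_cancel, hone]
  have hkey : ∀ (x : G), ∀ z ∈ O, χ (sec (x • z)) = χ x * χ (sec z) := by
    intro x z hz
    have h1 : ((sec (x • z))⁻¹ * x * sec z) • θ = θ := by
      rw [mul_smul, mul_smul, hsec z hz, inv_smul_eq_iff, hsec _ (hsmulO x hz)]
    have h2 := htriv _ h1
    rw [hmul, hmul] at h2
    have h3 := hinv (sec (x • z))
    have h4 : χ (sec (x • z))⁻¹ ≠ 0 := hne _
    apply mul_left_cancel₀ h4
    rw [h3, ← h2, mul_assoc]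
  let c : C → C := fun z => (χ (sec z))⁻¹
  let a : ℕ → C := fun j => ∑ z ∈ O, c z * z ^ j
  have hact : ∀ (x : G) (j : ℕ), x • a j = χ x * a j := by
    intro x j
    have h1 : x • a j = ∑ z ∈ O, χ x * (c (x • z) * (x • z) ^ j) := by
      simp only [a, Finset.smul_sum]
      refine Finset.sum_congr rfl fun z hz => ?_
      rw [smul_mul', smul_pow']
      simp only [c]
      rw [smul_inv'', hfix, hkey x z hz, mul_inv, ← mul_assoc, ← mul_assoc,
        mul_inv_cancel₀ (hne x), one_mul]
    rw [h1, ← Finset.mul_sum]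
    congr 1
    refine Finset.sum_bij (fun z _ => x • z) (fun z hz => hsmulO x hz)
      (fun a _ b _ hab => smul_left_cancel x hab) (fun b hb => ?_) (fun _ _ => rfl)
    exact ⟨x⁻¹ • b, hsmulO _ hb, smul_inv_smul x b⟩
  by_cases hall : ∀ j, a j = 0
  · exfalso
    have hpoly : ∀ P : Polynomial C, ∑ z ∈ O, c z * P.eval z = 0 := by
      intro P
      have h1 : ∀ z ∈ O, c z * P.eval z =
          ∑ i ∈ Finset.range (P.natDegree + 1), P.coeff i * (c z * z ^ i) := by
        intro z _
        rw [Polynomial.eval_eq_sum_range, Finset.mul_sum]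
        refine Finset.sum_congr rfl fun i _ => ?_
        ring
      rw [Finset.sum_congr rfl h1, Finset.sum_comm]
      refine Finset.sum_eq_zero fun i _ => ?_
      rw [← Finset.mul_sum]
      have := hall i
      simp only [a] at this
      rw [this, mul_zero]
    have h2 := hpoly (∏ w ∈ O.erase θ, (Polynomial.X - Polynomial.C w))
    rw [Finset.sum_eq_single θ] at h2
    · rcases mul_eq_zero.1 h2 with h3 | h3
      · exact inv_ne_zero (hne _) h3
      · rw [Polynomial.eval_prod, Finset.prod_eq_zero_iff] at h3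
        obtain ⟨w, hw, hw0⟩ := h3
        rw [Polynomial.eval_sub, Polynomial.eval_X, Polynomial.eval_C, sub_eq_zero] at hw0
        exact (Finset.ne_of_mem_erase hw) hw0.symm
    · intro z hz hzθ
      rw [Polynomial.eval_prod, Finset.prod_eq_zero (Finset.mem_erase.2 ⟨hzθ, hz⟩), mul_zero]
      rw [Polynomial.eval_sub, Polynomial.eval_X, Polynomial.eval_C, sub_self]
    · intro h3
      exact absurd hθO h3
  · push Not at hall
    obtain ⟨j, hj⟩ := hall
    exact ⟨a j, hj, fun x => hact x j⟩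

variable {Γ : Type*} [Group Γ] {C : Type*} [Field C] [MulSemiringAction Γ C] {p : ℕ} {π ζ : C}
  {β : ↥(stabilizer Γ π) → ZMod p}

/-- **(H90)** -/
theorem exists_isKum {Γ₀ : Type*} [LinearOrderedCommGroupWithZero Γ₀] {v : Valuation C Γ₀} {ϖ : C}
    [NeZero p] (h : IsSH Γ v ϖ) {e : ℕ} (hπ : IsTot Γ v ϖ π e)
    (hζ : IsPrimitiveRoot ζ p) (hζL : InL Γ π ζ)
    (hadd : ∀ x y, β (x * y) = β x + β y)
    {N'' : Subgroup Γ} (hopen : IsOpenIn C N'') (hker : ∀ x : ↥(stabilizer Γ π), (x : Γ) ∈ N'' → β x = 0) :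
    ∃ α : C, IsKum π ζ β α := by
  obtain ⟨-, θ, -, hθ⟩ := exists_isTot_of_isOpenIn h hopen
  have hζ0 : ζ ≠ 0 := hζ.ne_zero (NeZero.ne p)
  obtain ⟨α, hα0, hα⟩ := exists_resolvent (G := ↥(stabilizer Γ π)) (C := C)
    (fun x => ζ ^ (β x).val)
    (fun x y => by
      show ζ ^ (β (x * y)).val = ζ ^ (β x).val * ζ ^ (β y).val
      rw [hadd, ZMod.val_add, ← pow_add, ← pow_eq_pow_mod _ hζ.pow_eq_one])
    (fun x => pow_ne_zero _ hζ0)
    (fun g x => by
      show (g : Γ) • ζ ^ (β x).val = ζ ^ (β x).val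
      rw [smul_pow', hζL g.1 g.2])
    θ
    ((h.orb θ).subset (by
      rintro _ ⟨g, rfl⟩
      exact ⟨g.1, rfl⟩))
    (fun x hx => by
      have hx' : (x : Γ) ∈ N'' := by
        rw [← hθ]
        exact hx
      show ζ ^ (β x).val = 1
      rw [hker x hx', ZMod.val_zero, pow_zero])
  exact ⟨α, hα0, fun x => hα x⟩

end Fermat.Agent.S56.Font
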