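import Fermat.Agent.S56.Font.KT.KPB

/-!
# S56 / Font / KT / KPC  (WP KP-C).   See the header of `KP.lean` (item KP-C) for the proofs.
-/

set_option autoImplicit false
set_option linter.unusedVariables false
set_option linter.unusedSectionVars false

namespace Fermat.Agent.S56.Font

open MulAction

/-! ## the semilinear count with a twist `c₀` (generalisation of `card_le_of_semilinear`) -/

open Polynomial in
/-- the solutions of `y ^ q = c * y` -/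
lemma card_pow_semifixed_le {κ : Type*} [Field κ] {q : ℕ} (hq : 1 < q) (c : κ) :
    Finite {y : κ // y ^ q = c * y} ∧ Nat.card {y : κ // y ^ q = c * y} ≤ q := by
  classical
  have hdeg : (X ^ q - C c * X : κ[X]).natDegree = q := by
    rw [natDegree_sub_eq_left_of_natDegree_lt, natDegree_X_pow]
    rw [natDegree_X_pow]
    exact lt_of_le_of_lt ((natDegree_C_mul_le c X).trans natDegree_X_le) hq
  have hne : (X ^ q - C c * X : κ[X]) ≠ 0 := by
    intro h0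
    rw [h0, natDegree_zero] at hdeg
    omega
  have hsub : {y : κ | y ^ q = c * y} ⊆ ((X ^ q - C c * X : κ[X]).roots.toFinset : Set κ) := by
    intro y hy
    rw [Finset.mem_coe, Multiset.mem_toFinset, mem_roots hne]
    simp only [IsRoot.def, eval_sub, eval_pow, eval_X, eval_mul, eval_C]
    exact sub_eq_zero.2 hy
  have hfin : {y : κ | y ^ q = c * y}.Finite := (Finset.finite_toSet _).subset hsub
  refine ⟨hfin.to_subtype, ?_⟩
  calc Nat.card {y : κ // y ^ q = c * y} = {y : κ | y ^ q = c * y}.ncard := rfl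
    _ ≤ ((X ^ q - C c * X : κ[X]).roots.toFinset : Set κ).ncard :=
        Set.ncard_le_ncard hsub (Finset.finite_toSet _)
    _ = (X ^ q - C c * X : κ[X]).roots.toFinset.card := Set.ncard_coe_finset _
    _ ≤ Multiset.card (X ^ q - C c * X : κ[X]).roots := Multiset.toFinset_card_le _
    _ ≤ (X ^ q - C c * X : κ[X]).natDegree := card_roots' _
    _ = q := hdeg

theorem card_le_of_semilinear_twist {p : ℕ} (hp : p.Prime) {k κ : Type*} [Field k] [Finite k]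
    [CharP k p] [Field κ] [CharP κ p] {𝔅 : Type*} [AddCommGroup 𝔅] [Module k 𝔅] (X : 𝔅 → k → κ)
    (hadd₁ : ∀ b b' a, X (b + b') a = X b a + X b' a) (hadd₂ : ∀ b a a', X b (a + a') = X b a + X b a')
    (hsm : ∀ (c : k) b a, X (c • b) a = X b (c * a)) (hinj : ∀ b, (∀ a, X b a = 0) → b = 0)
    (c₀ : κ) (hq : ∀ b a, X b a ^ (p ^ 2) = c₀ * X b a) (ν₀ : k) (ϑ₀ : κ)
    (hE : ∀ b a, X b (ν₀ * a) = ϑ₀ * X b a)
    (hϑ : ϑ₀ ^ p ≠ ϑ₀) : Finite 𝔅 ∧ Nat.card 𝔅 ≤ Nat.card k := by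
  classical
  have : Fact p.Prime := ⟨hp⟩
  by_cases hX : ∀ b a, X b a = 0
  · have hsub : Subsingleton 𝔅 := ⟨fun b b' => by rw [hinj b (hX b), hinj b' (hX b')]⟩
    refine ⟨inferInstance, ?_⟩
    rw [Nat.card_of_subsingleton (0 : 𝔅)]
    exact Nat.card_pos
  push Not at hX
  obtain ⟨b₀, a₀, h₀⟩ := hX
  let _ : Algebra (ZMod p) k := ZMod.algebra k p
  have halg : ∀ n : ZMod p, algebraMap (ZMod p) k n = ((n.val : ℕ) : k) := by
    intro n
    conv_lhs => rw [← ZMod.natCast_zmod_val n]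
    rw [map_natCast]
  set F : IntermediateField (ZMod p) k := IntermediateField.adjoin (ZMod p) {ν₀} with hF
  -- (1), (2)
  have hFcard : p ^ 2 ≤ Nat.card F := by
    have h1 := Module.natCard_eq_pow_finrank (K := ZMod p) (V := F)
    rw [Nat.card_zmod] at h1
    rw [h1]
    apply Nat.pow_le_pow_right hp.pos
    by_contra hlt
    have hpos : 0 < Module.finrank (ZMod p) F := Module.finrank_pos
    have h2 : Module.finrank (ZMod p) F = 1 := by omega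
    rw [IntermediateField.finrank_eq_one_iff, hF, IntermediateField.adjoin_simple_eq_bot_iff,
      IntermediateField.mem_bot] at h2
    obtain ⟨n, hn⟩ := h2
    apply hϑ
    have h3 := hE b₀ a₀
    rw [← hn, halg, cnt_map_natCast_mul (hadd₂ b₀)] at h3
    have h4 : ϑ₀ = ((n.val : ℕ) : κ) := (mul_right_cancel₀ h₀ h3).symm
    rw [h4]
    rw [← frobenius_def, map_natCast]
  -- (3)
  have hstab : ∀ (b : 𝔅) (z : k), z ∈ F → ∀ a, X b a = 0 → X b (z * a) = 0 := by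
    intro b
    let Z : Subalgebra (ZMod p) k :=
      { carrier := {z | ∀ a, X b a = 0 → X b (z * a) = 0}
        mul_mem' := fun {z z'} hz hz' a ha => by
          rw [mul_assoc]
          exact hz _ (hz' a ha)
        add_mem' := fun {z z'} hz hz' a ha => by
          rw [add_mul, hadd₂, hz a ha, hz' a ha, add_zero]
        algebraMap_mem' := fun n a ha => by
          rw [halg, cnt_map_natCast_mul (hadd₂ b), ha, mul_zero] }
    have hν : ν₀ ∈ Z := fun a ha => by rw [hE, ha, mul_zero]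
    have hle : Algebra.adjoin (ZMod p) {ν₀} ≤ Z := Algebra.adjoin_le (by simpa using hν)
    intro z hz
    have hint : IsIntegral (ZMod p) ν₀ := Algebra.IsIntegral.isIntegral ν₀
    have hz' : z ∈ F.toSubalgebra := hz
    rw [hF, IntermediateField.adjoin_simple_toSubalgebra_of_isAlgebraic hint.isAlgebraic] at hz'
    exact hle hz'
  -- (4)
  have hsub : ∀ b b' a, X (b - b') a = X b a - X b' a := by
    intro b b' a
    have h := hadd₁ (b - b') b' a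
    rw [sub_add_cancel] at h
    rw [h, add_sub_cancel_right]
  set m := Module.finrank F k with hm
  let bs := Module.finBasis F k
  have hp2 : 1 < p ^ 2 := Nat.one_lt_pow (by norm_num) hp.one_lt
  obtain ⟨hRfin, hRcard⟩ := card_pow_semifixed_le (κ := κ) hp2 c₀
  let Ψ : 𝔅 → (Fin m → {y : κ // y ^ (p ^ 2) = c₀ * y}) := fun b j => ⟨X b (bs j), hq b (bs j)⟩
  have hΨ : Function.Injective Ψ := by
    intro b b' hbb
    rw [← sub_eq_zero]
    apply hinj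
    intro a
    have h1 : ∀ j, X (b - b') (bs j) = 0 := by
      intro j
      rw [hsub, sub_eq_zero]
      exact congrArg Subtype.val (congrFun hbb j)
    rw [← bs.sum_repr a, cnt_map_sum (hadd₂ _)]
    refine Finset.sum_eq_zero (fun j _ => ?_)
    exact hstab _ _ (bs.repr a j).2 _ (h1 j)
  refine ⟨Finite.of_injective Ψ hΨ, ?_⟩
  calc Nat.card 𝔅 ≤ Nat.card (Fin m → {y : κ // y ^ (p ^ 2) = c₀ * y}) :=
        Nat.card_le_card_of_injective Ψ hΨ
    _ = Nat.card {y : κ // y ^ (p ^ 2) = c₀ * y} ^ m := by rw [Nat.card_fun, Nat.card_fin]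
    _ ≤ (p ^ 2) ^ m := Nat.pow_le_pow_left hRcard m
    _ ≤ Nat.card F ^ m := Nat.pow_le_pow_left hFcard m
    _ = Nat.card k := (Module.natCard_eq_pow_finrank (K := F) (V := k)).symm

variable {Γ : Type*} [Group Γ] {C : Type*} [Field C] [MulSemiringAction Γ C]
  {Γ₀ : Type*} [LinearOrderedCommGroupWithZero Γ₀] {v : Valuation C Γ₀} {p : ℕ} {π ζ : C}
  {k : Type*} [Field k]

/-! ## KP-C : the two theorems -/

lemma kpc_not_dvd_e (hp : p.Prime) : ¬ p ∣ p ^ 2 - 1 := by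
  intro hd
  have h1 : p ∣ p ^ 2 := dvd_pow_self p two_ne_zero
  have h2 : 1 ≤ p ^ 2 := Nat.one_le_pow _ _ hp.pos
  have h3 : p ∣ p ^ 2 - (p ^ 2 - 1) := Nat.dvd_sub h1 hd
  have h4 : p ^ 2 - (p ^ 2 - 1) = 1 := by omega
  rw [h4] at h3
  exact hp.one_lt.ne' (Nat.dvd_one.1 h3)

lemma kpc_live_two_a (hp : p.Prime) : ¬ p ∣ p ^ 2 - 1 + 2 := by
  intro hd
  have h1 : p ∣ p ^ 2 := dvd_pow_self p two_ne_zero
  have h2 : 1 ≤ p ^ 2 := Nat.one_le_pow _ _ hp.pos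
  have h3 : p ∣ (p ^ 2 - 1 + 2) - p ^ 2 := Nat.dvd_sub hd h1
  have h4 : (p ^ 2 - 1 + 2) - p ^ 2 = 1 := by omega
  rw [h4] at h3
  exact hp.one_lt.ne' (Nat.dvd_one.1 h3)

lemma kpc_live_two_b (hp : p.Prime) (hp2 : p ≠ 2) : (p - 1) * 2 < p ^ 2 - 1 := by
  rw [num_e_eq]
  have h3 := num_three_le hp hp2
  exact Nat.mul_lt_mul_of_pos_left (by omega) (by omega)

lemma kpc_le_p {i : ℕ} (hl2 : (p - 1) * i < p ^ 2 - 1) : i ≤ p := by
  rw [num_e_eq] at hl2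
  have := Nat.lt_of_mul_lt_mul_left hl2
  omega

section Main

variable [IsAlgClosed C] [Finite k] [CharP k p]

/-- the facts on `ϑ s = rs v (tht π s)` needed by `Num.lean`. -/
theorem theta_facts (hp : p.Prime) (hp2 : p ≠ 2) (h : IsSH Γ v (p : C))
    (hπe : π ^ (p ^ 2 - 1) = (p : C)) (hζ : IsPrimitiveRoot ζ p) {ω : Γ → ZMod p}
    (hω : ∀ s : Γ, s • ζ = ζ ^ (ω s).val) :
    (∀ s : Γ, rs v (tht π s) ≠ 0) ∧
    (∀ m : ℕ, (∀ s : Γ, rs v (tht π s) ^ m = 1) → (p ^ 2 - 1) ∣ m) ∧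
    (∀ s : Γ, rs v (tht π s) ^ (p + 1) = ((ω s).val : Kap v)) := by
  have hpe := kpc_not_dvd_e hp
  have hv1 : ∀ s : Γ, v (tht π s) = 1 := fun s => val_tht h hπe s
  have hvp : ∀ (s : Γ) (m : ℕ), v (tht π s ^ m) ≤ 1 := fun s m => by
    rw [map_pow, hv1 s, one_pow]
  refine ⟨fun s hs => ?_, fun m hm => ?_, fun s => ?_⟩
  · rw [rs_eq_zero_iff (hv1 s).le, hv1 s] at hs
    exact lt_irrefl _ hs
  · apply dvd_of_tht_pow hp h hπe hpe
    intro s
    have h1 := hm s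
    rw [← rs_pow (hv1 s).le, ← rs_one (v := v), rs_eq_iff (hvp s m) (by rw [map_one])] at h1
    exact h1
  · rw [← rs_pow (hv1 s).le, ← rs_natCast, rs_eq_iff (hvp s _) (ThetaAux.val_natCast_le v _)]
    exact val_tht_pow_sub hp h hπe num_e_eq hζ s (hω s)

/-- **(KP-ZERO)** an inertia-invariant peu ramifié homomorphism `N' → k` vanishes. -/
theorem kp_zero (hp : p.Prime) (hp2 : p ≠ 2) (h : IsSH Γ v (p : C))
    (hπe : π ^ (p ^ 2 - 1) = (p : C)) (hζ : IsPrimitiveRoot ζ p)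
    (b : ↥(stabilizer Γ π) → k) (hb : Peu p v π ζ b)
    (hinv : ∀ (s : Γ) (x y : ↥(stabilizer Γ π)), (y : Γ) = s * x * s⁻¹ → b y = b x) : b = 0 := by
  have : NeZero p := ⟨hp.ne_zero⟩
  have : CharP (Kap v) p := charP_kap hp h.lt_one
  have hpe := kpc_not_dvd_e hp
  obtain ⟨t, ht⟩ := exists_t hp k
  obtain ⟨ω, hω⟩ := exists_omega hp Γ hζ
  obtain ⟨hϑ0, hord, hϑω⟩ := theta_facts hp hp2 h hπe hζ hω
  have hζL : InL Γ π ζ := fun x hx => smul_zeta_of_mem_stabilizer hp h hπe num_e_eq hζ hx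
  have hζ1 := hζ.pow_eq_one
  rcases exists_min_level hp h hπe (kw p v π ζ t b) (fun a => hb.isU_kw hζ1 a) with
    hpow | ⟨i, hl1, hl2, hU, a, ha⟩
  · exact hb.eq_zero_of_pow hζ hζL ht hpow
  · exfalso
    refine false_of_nu_eq_omega (k := k) (κ := Kap v) (S := Γ) (ϑ := fun s => rs v (tht π s))
      (ω := ω) (ν := fun s => ((ω s).val : k)) (x := fun a => lc Γ v p π i (kw p v π ζ t b a))
      (i := i) hp hp2 hϑ0 hord hϑω (lc_kw_add_right hp h hπe hl1 hl2 hζ1 hb hU) ⟨a, ?_⟩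
      (kpc_le_p hl2) ?_ (fun _ => rfl)
    · rw [Ne, lc_eq_zero_iff hp h hπe hl1 hl2 (hU a)]
      exact ha
    · intro s a
      have h1 := lc_kw_smul hp h hπe hl1 hl2 hζ1 hpe hb hU s (hω s) (c := 1) one_ne_zero
        (fun x y hxy => by rw [one_mul]; exact hinv s x y hxy) a
      rw [inv_one, mul_one] at h1
      exact h1

/-- **(KP-CARD)** -/
theorem kp_card (hp : p.Prime) (hp2 : p ≠ 2) (h : IsSH Γ v (p : C))
    (hπe : π ^ (p ^ 2 - 1) = (p : C)) (hζ : IsPrimitiveRoot ζ p)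
    (𝔅 : Submodule k (↥(stabilizer Γ π) → k)) (hPeu : ∀ b ∈ 𝔅, Peu p v π ζ b)
    (χ : Γ → k) (hχ0 : ∀ s, χ s ≠ 0) (hχ1 : ∀ s, χ s ^ (p + 1) = 1)
    (hχω : ∃ (s : Γ) (m : ℕ), s • ζ = ζ ^ m ∧ χ s ≠ (m : k))
    (hχ : ∀ b ∈ 𝔅, ∀ (s : Γ) (x y : ↥(stabilizer Γ π)), (y : Γ) = s * x * s⁻¹ → b y = χ s * b x)
    (Φ : C →+* C) (hΦv : ∀ z, v (Φ z) = v z) (hΦπ : Φ π = π)
    (hΦq : ∀ z, v z ≤ 1 → v (Φ z - z ^ (p ^ 2)) < 1)
    (cΦ : ↥(stabilizer Γ π) → ↥(stabilizer Γ π)) (hsurj : Function.Surjective cΦ)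
    (hΦc : ∀ (x : ↥(stabilizer Γ π)) (z : C), Φ ((x : Γ) • z) = (cΦ x : Γ) • Φ z)
    (hbΦ : ∀ b ∈ 𝔅, ∀ x, b (cΦ x) = b x) :
    Finite 𝔅 ∧ Nat.card 𝔅 ≤ Nat.card k := by
  have : NeZero p := ⟨hp.ne_zero⟩
  have : Fact p.Prime := ⟨hp⟩
  have : CharP (Kap v) p := charP_kap hp h.lt_one
  have hpe := kpc_not_dvd_e hp
  obtain ⟨t, ht⟩ := exists_t hp k
  obtain ⟨ω, hω⟩ := exists_omega hp Γ hζ
  obtain ⟨hϑ0, hord, hϑω⟩ := theta_facts hp hp2 h hπe hζ hω
  have hζL : InL Γ π ζ := fun x hx => smul_zeta_of_mem_stabilizer hp h hπe num_e_eq hζ hx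
  have hζ1 := hζ.pow_eq_one
  set ν : Γ → k := fun s => ((ω s).val : k) * (χ s)⁻¹ with hνdef
  have hν : ∀ s, ν s ^ (p + 1) = (((ω s).val : k)) ^ 2 := by
    intro s
    have h1 : (((ω s).val : k)) ^ p = ((ω s).val : k) := by
      rw [← frobenius_def, map_natCast]
    rw [hνdef]
    simp only
    rw [mul_pow, inv_pow, hχ1 s, inv_one, mul_one, pow_succ, h1, sq]
  have hν1 : ∃ s, ν s ≠ 1 := by
    obtain ⟨s, m, hm, hne⟩ := hχω
    refine ⟨s, fun h1 => hne ?_⟩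
    have h2 : ζ ^ m = ζ ^ (ω s).val := by rw [← hm, hω s]
    have h3 : m ≡ (ω s).val [MOD p] := by
      rw [(hζ.isOfFinOrder hp.ne_zero).pow_eq_pow_iff_modEq, ← hζ.eq_orderOf] at h2
      exact h2
    have h4 : (m : k) = ((ω s).val : k) := (CharP.natCast_eq_natCast k p).2 h3
    rw [h4]
    rw [hνdef] at h1
    simp only at h1
    exact ((mul_inv_eq_one₀ (hχ0 s)).1 h1).symm
  -- (E1) for all live levels
  have hE1 : ∀ b ∈ 𝔅, ∀ i : ℕ, ¬ p ∣ p ^ 2 - 1 + i → (p - 1) * i < p ^ 2 - 1 →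
      (∀ a, IsU Γ v p π i (kw p v π ζ t b a)) → ∀ (s : Γ) (a : k),
      lc Γ v p π i (kw p v π ζ t b (ν s * a)) =
        rs v (tht π s) ^ i * lc Γ v p π i (kw p v π ζ t b a) := by
    intro b hb i hl1 hl2 hU s a
    exact lc_kw_smul hp h hπe hl1 hl2 hζ1 hpe (hPeu b hb) hU s (hω s) (hχ0 s) (hχ b hb s) a
  -- the dichotomy
  have hdich : ∀ b ∈ 𝔅, (∀ a, ∃ y : C, y ≠ 0 ∧ InL Γ π y ∧ kw p v π ζ t b a = y ^ p) ∨
      ((∀ a, IsU Γ v p π 2 (kw p v π ζ t b a)) ∧ ∃ a, ¬ IsU Γ v p π 3 (kw p v π ζ t b a)) := by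
    intro b hb
    rcases exists_min_level hp h hπe (kw p v π ζ t b) (fun a => (hPeu b hb).isU_kw hζ1 a) with
      hpow | ⟨i, hl1, hl2, hU, a, ha⟩
    · exact Or.inl hpow
    · right
      have hi2 : i = 2 := by
        refine level_eq_two (k := k) (κ := Kap v) (S := Γ) (ϑ := fun s => rs v (tht π s))
          (ω := ω) (ν := ν) (x := fun a => lc Γ v p π i (kw p v π ζ t b a))
          (i := i) hp hp2 hϑ0 hord hϑω (lc_kw_add_right hp h hπe hl1 hl2 hζ1 (hPeu b hb) hU)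
          ⟨a, ?_⟩ (kpc_le_p hl2) (hE1 b hb i hl1 hl2 hU) hν hν1
        rw [Ne, lc_eq_zero_iff hp h hπe hl1 hl2 (hU a)]
        exact ha
      subst hi2
      exact ⟨hU, a, ha⟩
  have hU2 : ∀ b ∈ 𝔅, ∀ a, IsU Γ v p π 2 (kw p v π ζ t b a) := by
    intro b hb a
    rcases hdich b hb with hpow | ⟨hU, -⟩
    · obtain ⟨y, hy0, hy, hk⟩ := hpow a
      rw [hk]
      exact isU_pow hy0 hy 2
    · exact hU a
  have hl1 := kpc_live_two_a hp
  have hl2 := kpc_live_two_b hp hp2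
  obtain ⟨s₀, hs₀⟩ := exists_theta_sq_not_frob_fixed (κ := Kap v) (S := Γ)
    (ϑ := fun s => rs v (tht π s)) hp hp2 hϑ0 hord
  obtain ⟨m, -, hm⟩ : ∃ m, m < p ∧ ζ ^ m = Φ ζ :=
    hζ.eq_pow_of_pow_eq_one (by rw [← map_pow, hζ1, map_one])
  refine card_le_of_semilinear_twist hp
    (fun (b : 𝔅) (a : k) => lc Γ v p π 2 (kw p v π ζ t (b : ↥(stabilizer Γ π) → k) a))
    ?_ ?_ ?_ ?_ (m : Kap v) ?_ (ν s₀) (rs v (tht π s₀) ^ 2) ?_ hs₀
  · intro b b' a
    exact lc_kw_add_left hp h hπe hl1 hl2 hζ1 (hPeu b b.2) (hPeu b' b'.2)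
      (hPeu _ (𝔅.add_mem b.2 b'.2)) a (hU2 b b.2 a) (hU2 b' b'.2 a)
  · intro b a a'
    exact lc_kw_add_right hp h hπe hl1 hl2 hζ1 (hPeu b b.2) (hU2 b b.2) a a'
  · intro c b a
    show lc Γ v p π 2 (kw p v π ζ t (c • (b : ↥(stabilizer Γ π) → k)) a) = _
    rw [kw_smul]
  · intro b hb0
    apply Subtype.ext
    rcases hdich b b.2 with hpow | ⟨hU, a, ha⟩
    · exact (hPeu b b.2).eq_zero_of_pow hζ hζL ht hpow
    · exact absurd ((lc_eq_zero_iff hp h hπe hl1 hl2 (hU a)).1 (hb0 a)) ha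
  · intro b a
    exact lc_kw_frob hp h hπe hl1 hl2 hζ1 (hPeu b b.2) (hU2 b b.2) Φ hΦv hΦπ hΦq cΦ hsurj hΦc
      (hbΦ b b.2) hm.symm a
  · intro b a
    exact hE1 b b.2 2 hl1 hl2 (hU2 b b.2) s₀ a

end Main

end Fermat.Agent.S56.Font
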