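import Mathlib

/-!
# S56 / Font / KT / CntAlg : the semilinear count (pure algebra, Mathlib only)                 (WP KT-CNT)

`k` a finite field of characteristic `p`, `κ` a field of characteristic `p`, `𝔅` a `k`-vector space, `X : 𝔅 → k → κ` biadditive with
 (sm) `X (c • b) a = X b (c * a)`, (inj) `X b = 0 ⟹ b = 0`, (q) `X b a ^ (p^2) = c₀ * X b a`, (E) `X b (ν₀ a) = ϑ₀ X b a` with `ϑ₀^p ≠ ϑ₀`.
THEN `#𝔅 ≤ #k`.

PROOF. If `X = 0` then `𝔅 = 0`.  Otherwise fix `X b₀ a₀ ≠ 0`.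
 (1) `ν₀ ∉ 𝔽_p` i.e. `ν₀^p ≠ ν₀`: if `ν₀ = (n : k)`, `n : ℕ` (the roots of `T^p - T` in `k` are the `p` elements `(n : k)`; `ZMod.algebra`, `FiniteField`/`ZMod.pow_card`, or `Polynomial.card_roots`), additivity gives
     `X b₀ (n a₀) = n X b₀ a₀`, so `ϑ₀ = (n : κ)` and `ϑ₀^p = ϑ₀` (`Nat.cast_pow`/`ZMod.pow_card` through `ZMod.castHom`, or `frobenius_natCast`).
 (2) `F := Algebra.adjoin (ZMod p) {ν₀}` (or `IntermediateField.adjoin`), a subfield of `k` with `#F ≥ p^2` (`F` is a `ZMod p`-vector space of dimension `≥ 2`, since `ν₀ ∉` the image of `ZMod p`).  `m := finrank F k`, `#k = #F^m ≥ p^(2m)`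
     (`Module.card_eq_pow_finrank` / `Module.natCard_eq_pow_finrank`).
 (3) for every `b` the set `Z_b = {a | X b a = 0}` is an additive subgroup stable under `ν₀ *`, hence under `F` (`Algebra.adjoin_induction`): an `F`-subspace.
 (4) `a_1..a_m` an `F`-basis of `k`.  `b ↦ (X b a_j)_j` is additive, injective by (3) + (inj), with values in `(Fin m → R)`, `R = {y ∈ κ | y^(p^2) = y}`, `#R ≤ p^2` (roots of `T^(p^2) - T`: `Polynomial.card_roots'`, `natDegree`).
     So `#𝔅 ≤ (p^2)^m ≤ #k`.   (`𝔅` is then finite; `Nat.card_le_card_of_injective`, `Nat.card_pi`/`Nat.card_fun`.)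
-/

set_option autoImplicit false
set_option linter.unusedVariables false

namespace Fermat.Agent.S56.Font

open Polynomial in
/-- the solutions of `y^q = c₀ y` -/
lemma card_pow_fixed_le {κ : Type*} [Field κ] {q : ℕ} (hq : 1 < q) (c₀ : κ) :
    Finite {y : κ // y ^ q = c₀ * y} ∧ Nat.card {y : κ // y ^ q = c₀ * y} ≤ q := by
  classical
  have hlt : (C c₀ * X : κ[X]).natDegree < (X ^ q : κ[X]).natDegree := by
    rw [natDegree_X_pow]
    exact lt_of_le_of_lt (natDegree_C_mul_le _ _) (by rw [natDegree_X]; exact hq)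
  have hdeg : (X ^ q - C c₀ * X : κ[X]).natDegree = q := by
    rw [natDegree_sub_eq_left_of_natDegree_lt hlt, natDegree_X_pow]
  have hne : (X ^ q - C c₀ * X : κ[X]) ≠ 0 := by
    intro h0
    rw [h0, natDegree_zero] at hdeg
    omega
  have hsub : {y : κ | y ^ q = c₀ * y} ⊆ ((X ^ q - C c₀ * X : κ[X]).roots.toFinset : Set κ) := by
    intro y hy
    rw [Finset.mem_coe, Multiset.mem_toFinset, mem_roots hne]
    simp only [IsRoot.def, eval_sub, eval_pow, eval_X, eval_mul, eval_C]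
    exact sub_eq_zero.2 hy
  have hfin : {y : κ | y ^ q = c₀ * y}.Finite := (Finset.finite_toSet _).subset hsub
  refine ⟨hfin.to_subtype, ?_⟩
  calc Nat.card {y : κ // y ^ q = c₀ * y} = {y : κ | y ^ q = c₀ * y}.ncard := rfl
    _ ≤ ((X ^ q - C c₀ * X : κ[X]).roots.toFinset : Set κ).ncard :=
        Set.ncard_le_ncard hsub (Finset.finite_toSet _)
    _ = (X ^ q - C c₀ * X : κ[X]).roots.toFinset.card := Set.ncard_coe_finset _
    _ ≤ Multiset.card (X ^ q - C c₀ * X : κ[X]).roots := Multiset.toFinset_card_le _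
    _ ≤ (X ^ q - C c₀ * X : κ[X]).natDegree := card_roots' _
    _ = q := hdeg


section

variable {k κ : Type*} [Field k] [Field κ] {x : k → κ}

lemma cnt_map_zero (hadd : ∀ a a', x (a + a') = x a + x a') : x 0 = 0 := by
  have h := hadd 0 0
  rw [add_zero] at h
  exact left_eq_add.1 h

lemma cnt_map_natCast_mul (hadd : ∀ a a', x (a + a') = x a + x a') (n : ℕ) (a : k) :
    x ((n : k) * a) = (n : κ) * x a := by
  induction n with
  | zero => simp [cnt_map_zero hadd]
  | succ n ih => rw [Nat.cast_succ, add_mul, one_mul, hadd, ih, Nat.cast_succ, add_mul, one_mul]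

lemma cnt_map_sum (hadd : ∀ a a', x (a + a') = x a + x a') {ι : Type*} (s : Finset ι)
    (f : ι → k) : x (∑ j ∈ s, f j) = ∑ j ∈ s, x (f j) :=
  map_sum (AddMonoidHom.mk' x hadd) f s

end

theorem card_le_of_semilinear {p : ℕ} (hp : p.Prime) {k κ : Type*} [Field k] [Finite k] [CharP k p]
    [Field κ] [CharP κ p] {𝔅 : Type*} [AddCommGroup 𝔅] [Module k 𝔅] (X : 𝔅 → k → κ)
    (hadd₁ : ∀ b b' a, X (b + b') a = X b a + X b' a) (hadd₂ : ∀ b a a', X b (a + a') = X b a + X b a')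
    (hsm : ∀ (c : k) b a, X (c • b) a = X b (c * a)) (hinj : ∀ b, (∀ a, X b a = 0) → b = 0)
    (c₀ : κ) (hq : ∀ b a, X b a ^ (p ^ 2) = c₀ * X b a) (ν₀ : k) (ϑ₀ : κ) (hE : ∀ b a, X b (ν₀ * a) = ϑ₀ * X b a)
    (hϑ : ϑ₀ ^ p ≠ ϑ₀) : Finite 𝔅 ∧ Nat.card 𝔅 ≤ Nat.card k := by
  classical
  have : Fact p.Prime := ⟨hp⟩
  by_cases hX : ∀ b a, X b a = 0
  · have hsub : Subsingleton 𝔅 := ⟨fun b b' => by rw [hinj b (hX b), hinj b' (hX b')]⟩
    refine ⟨inferInstance, ?_⟩
    rw [Nat.card_of_subsingleton (0 : 𝔅)]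
    exact Nat.card_pos
  push Not at hX
  obtain ⟨b₀, a₀, h₀⟩ := hX
  let _ : Algebra (ZMod p) k := ZMod.algebra k p
  have halg : ∀ n : ZMod p, algebraMap (ZMod p) k n = ((n.val : ℕ) : k) := by
    intro n
    conv_lhs => rw [← ZMod.natCast_zmod_val n]
    rw [map_natCast]
  set F : IntermediateField (ZMod p) k := IntermediateField.adjoin (ZMod p) {ν₀} with hF
  -- (1), (2)
  have hFcard : p ^ 2 ≤ Nat.card F := by
    have h1 := Module.natCard_eq_pow_finrank (K := ZMod p) (V := F)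
    rw [Nat.card_zmod] at h1
    rw [h1]
    apply Nat.pow_le_pow_right hp.pos
    by_contra hlt
    have hpos : 0 < Module.finrank (ZMod p) F := Module.finrank_pos
    have h2 : Module.finrank (ZMod p) F = 1 := by omega
    rw [IntermediateField.finrank_eq_one_iff, hF, IntermediateField.adjoin_simple_eq_bot_iff,
      IntermediateField.mem_bot] at h2
    obtain ⟨n, hn⟩ := h2
    apply hϑ
    have h3 := hE b₀ a₀
    rw [← hn, halg, cnt_map_natCast_mul (hadd₂ b₀)] at h3
    have h4 : ϑ₀ = ((n.val : ℕ) : κ) := (mul_right_cancel₀ h₀ h3).symm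
    rw [h4]
    rw [← frobenius_def, map_natCast]
  -- (3)
  have hstab : ∀ (b : 𝔅) (z : k), z ∈ F → ∀ a, X b a = 0 → X b (z * a) = 0 := by
    intro b
    let Z : Subalgebra (ZMod p) k :=
      { carrier := {z | ∀ a, X b a = 0 → X b (z * a) = 0}
        mul_mem' := fun {z z'} hz hz' a ha => by
          rw [mul_assoc]
          exact hz _ (hz' a ha)
        add_mem' := fun {z z'} hz hz' a ha => by
          rw [add_mul, hadd₂, hz a ha, hz' a ha, add_zero]
        algebraMap_mem' := fun n a ha => by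
          rw [halg, cnt_map_natCast_mul (hadd₂ b), ha, mul_zero] }
    have hν : ν₀ ∈ Z := fun a ha => by rw [hE, ha, mul_zero]
    have hle : Algebra.adjoin (ZMod p) {ν₀} ≤ Z := Algebra.adjoin_le (by simpa using hν)
    intro z hz
    have hint : IsIntegral (ZMod p) ν₀ := Algebra.IsIntegral.isIntegral ν₀
    have hz' : z ∈ F.toSubalgebra := hz
    rw [hF, IntermediateField.adjoin_simple_toSubalgebra_of_isAlgebraic hint.isAlgebraic] at hz'
    exact hle hz'
  -- (4)
  have hsub : ∀ b b' a, X (b - b') a = X b a - X b' a := by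
    intro b b' a
    have h := hadd₁ (b - b') b' a
    rw [sub_add_cancel] at h
    rw [h, add_sub_cancel_right]
  set m := Module.finrank F k with hm
  let bs := Module.finBasis F k
  have hp2 : 1 < p ^ 2 := Nat.one_lt_pow (by norm_num) hp.one_lt
  obtain ⟨hRfin, hRcard⟩ := card_pow_fixed_le (κ := κ) hp2 c₀
  let Ψ : 𝔅 → (Fin m → {y : κ // y ^ (p ^ 2) = c₀ * y}) := fun b j => ⟨X b (bs j), hq b (bs j)⟩
  have hΨ : Function.Injective Ψ := by
    intro b b' hbb
    rw [← sub_eq_zero]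
    apply hinj
    intro a
    have h1 : ∀ j, X (b - b') (bs j) = 0 := by
      intro j
      rw [hsub, sub_eq_zero]
      exact congrArg Subtype.val (congrFun hbb j)
    rw [← bs.sum_repr a, cnt_map_sum (hadd₂ _)]
    refine Finset.sum_eq_zero (fun j _ => ?_)
    exact hstab _ _ (bs.repr a j).2 _ (h1 j)
  refine ⟨Finite.of_injective Ψ hΨ, ?_⟩
  calc Nat.card 𝔅 ≤ Nat.card (Fin m → {y : κ // y ^ (p ^ 2) = c₀ * y}) :=
        Nat.card_le_card_of_injective Ψ hΨ
    _ = Nat.card {y : κ // y ^ (p ^ 2) = c₀ * y} ^ m := by rw [Nat.card_fun, Nat.card_fin]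
    _ ≤ (p ^ 2) ^ m := Nat.pow_le_pow_left hRcard m
    _ ≤ Nat.card F ^ m := Nat.pow_le_pow_left hFcard m
    _ = Nat.card k := (Module.natCard_eq_pow_finrank (K := F) (V := k)).symm

end Fermat.Agent.S56.Font
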