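import Fermat.Agent.S56.Font.KumNF

/-!
# S56 / Font / KT / Defs : Kummer toolkit over `L = K₀(π)`, `π^e = p`.  Definitions.

`(Γ, C, v, p)` strictly henselian (`IsSH`), `γ = v π`, `γ^e = v p`, `L = C^{Stab π}`.

* `InL Γ π x`  : `x ∈ L`.
* `IsU Γ v p π i u` : `u ∈ L^×` and `u y^p ∈ 1 + p π^i O_L` for some `y ∈ L^×`  (the class of `u` in `L^×/L^{×p}` has level `≥ e + i`).
* `IsLev Γ v p π i u x` : `u y^p ≡ 1 + p x π^i` modulo `p π^i m` for some `y ∈ L^×` (`x` integral): `x mod m` is the leading coefficient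
  of the class of `u` at level `e + i`.
* `IsKum π ζ β α` : `α ≠ 0` is a Kummer generator of the character `x ↦ ζ^(β x)` of `Stab π`.
* `tht π s = s π / π` (an `e`-th root of unity).
* `Kap v` the residue field of `(C, v)`, `rs v : C → Kap v` the reduction (`0` outside the valuation ring).
-/

set_option autoImplicit false

namespace Fermat.Agent.S56.Font

open MulAction

variable {C : Type*} [Field C] {Γ₀ : Type*} [LinearOrderedCommGroupWithZero Γ₀]

/-- `x ∈ L = K₀(π)` -/
def InL (Γ : Type*) [Group Γ] [MulSemiringAction Γ C] (π x : C) : Prop := FixBy (stabilizer Γ π) x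

/-- the class of `u` has level `≥ e + i`. -/
def IsU (Γ : Type*) [Group Γ] [MulSemiringAction Γ C] (v : Valuation C Γ₀) (p : ℕ) (π : C) (i : ℕ)
    (u : C) : Prop :=
  u ≠ 0 ∧ InL Γ π u ∧ ∃ y : C, y ≠ 0 ∧ InL Γ π y ∧ v (u * y ^ p - 1) ≤ v (p : C) * v π ^ i

/-- `x` is a leading coefficient of (the class of) `u` at level `e + i`. -/
def IsLev (Γ : Type*) [Group Γ] [MulSemiringAction Γ C] (v : Valuation C Γ₀) (p : ℕ) (π : C) (i : ℕ)
    (u x : C) : Prop :=
  u ≠ 0 ∧ InL Γ π u ∧ v x ≤ 1 ∧ ∃ y : C, y ≠ 0 ∧ InL Γ π y ∧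
    v (u * y ^ p - (1 + p * x * π ^ i)) < v (p : C) * v π ^ i

/-- `α` is a Kummer generator of the character `ζ^β` of `Stab π`. -/
def IsKum {Γ : Type*} [Group Γ] [MulSemiringAction Γ C] {p : ℕ} (π ζ : C)
    (β : ↥(stabilizer Γ π) → ZMod p) (α : C) : Prop :=
  α ≠ 0 ∧ ∀ x : ↥(stabilizer Γ π), (x : Γ) • α = ζ ^ (β x).val * α

/-- `s π / π`. -/
def tht {Γ : Type*} [Group Γ] [MulSemiringAction Γ C] (π : C) (s : Γ) : C := (s • π) / π

/-- the residue field of `(C, v)`. -/
abbrev Kap (v : Valuation C Γ₀) : Type _ := IsLocalRing.ResidueField ↥v.valuationSubring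

open scoped Classical in
/-- reduction modulo the maximal ideal (`0` on non integral elements). -/
noncomputable def rs (v : Valuation C Γ₀) (x : C) : Kap v :=
  if h : v x ≤ 1 then IsLocalRing.residue ↥v.valuationSubring ⟨x, (Valuation.mem_valuationSubring_iff v x).2 h⟩
  else 0

end Fermat.Agent.S56.Font
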