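import Fermat.Agent.S56.Font.KT.Defs

/-!
# S56 / Font / KT / Kummer : Kummer generators                      (WP KT-KUM; (H90) is in H90.lean = WP KT-H90)

`N' = Stab π`, `ζ` a primitive `p`-th root of unity fixed by `N'` (`hζL`), `β : ↥N' → ZMod p`.  `IsKum π ζ β α : α ≠ 0 ∧ ∀ x, x • α = ζ^(β x).val * α`.
(use `ζ^(a+b).val = ζ^a.val * ζ^b.val` : `ZMod.val_add`, `pow_eq_pow_mod`/`pow_mod_orderOf`-type lemma from `ζ^p = 1`; prove it once: `zeta_pow_val_add`.)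
* `IsKum.pow_inL` : `x (α^p) = ζ^(p ..) α^p = α^p`.
* `IsKum.div_inL` : same character ⟹ quotient fixed.
* `IsKum.mul`, `IsKum.mul_inL` (multiply by an element of `L^×`), `isKum_zero_iff`.
* `IsKum.eq_zero_of_pow` : `α^p = y^p`, `y ∈ L` ⟹ `(α/y)^p = 1`, `α/y = ζ^j` (`IsPrimitiveRoot.eq_pow_of_pow_eq_one`) is fixed by `N'`, so `α ∈ L`, `ζ^(β x).val = 1`, `(β x).val < p` ⟹ `β x = 0`
  (`IsPrimitiveRoot.pow_eq_one_iff_dvd`, `ZMod.val_lt`).
* `IsKum.map` : `σ : C →+* C`, `cσ : ↥N' → ↥N'` surjective with `σ (x • z) = cσ x • σ z`, `σ ζ = ζ^m`, `β' (cσ x) = m * β x` ⟹ `IsKum π ζ β' (σ α)`.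
* (H90) `exists_isKum` : `β` additive (`β (x y) = β x + β y`), vanishing on an open subgroup `N''` ⟹ a Kummer generator exists.
  PROOF. WLOG `N'' ≤ N'` (intersect; `IsOpenIn.inf`, `isOpenIn_stabilizer`).  `exists_isTot_of_isOpenIn`: `θ` with `Stab θ = N''`.  `h' := h.sub hπ : IsSH ↥N' v π`; `O := orbF h' θ` (the conjugates of `θ` under
  `N'`), `sec ↥N' θ z` a section.  For `j : ℕ` put `α_j := ∑_{z ∈ O} ζ^(- β (sec z)).val * z^j`.  (i) `x • α_j = ζ^(β x).val α_j` for `x ∈ N'`: reindex `z ↦ x z`; `sec (x z) = x * sec z * n`, `n ∈ Stab θ = N''`, so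
  `β (sec (x z)) = β x + β (sec z)`; `x` fixes `ζ`.  (ii) some `α_j ≠ 0`, `j < card O`: otherwise `∑_z c_z P(z) = 0` for every polynomial `P` of degree `< card O`; take `P` = Lagrange basis polynomial at `θ`
  (`Lagrange.basis`, `Lagrange.eval_basis_self`, `Lagrange.eval_basis_of_ne`, `Lagrange.degree_basis`): `c_θ = 0`, but `c_θ` is a power of `ζ`.
-/

set_option autoImplicit false

namespace Fermat.Agent.S56.Font

open MulAction

variable {Γ : Type*} [Group Γ] {C : Type*} [Field C] [MulSemiringAction Γ C] {p : ℕ} {π ζ : C}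
  {β β' : ↥(stabilizer Γ π) → ZMod p} {α α' : C}

theorem zeta_pow_mod (hζ : ζ ^ p = 1) (n : ℕ) : ζ ^ (n % p) = ζ ^ n := by
  conv_rhs => rw [← Nat.div_add_mod n p, pow_add, pow_mul, hζ, one_pow, one_mul]

theorem zeta_pow_val_add [NeZero p] (hζ : ζ ^ p = 1) (a b : ZMod p) :
    ζ ^ (a + b).val = ζ ^ a.val * ζ ^ b.val := by
  rw [ZMod.val_add, zeta_pow_mod hζ, pow_add]

theorem zeta_pow_val_mul [NeZero p] (hζ : ζ ^ p = 1) (m : ℕ) (a : ZMod p) :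
    ζ ^ ((m : ZMod p) * a).val = (ζ ^ m) ^ a.val := by
  rw [ZMod.val_mul, zeta_pow_mod hζ, ZMod.val_natCast, pow_mul,
    zeta_pow_mod hζ]

theorem IsKum.pow_inL (hζ : ζ ^ p = 1) (hα : IsKum π ζ β α) : InL Γ π (α ^ p) := by
  intro s hs
  rw [smul_pow', hα.2 ⟨s, hs⟩, mul_pow, ← pow_mul, mul_comm _ p, pow_mul, hζ, one_pow, one_mul]

theorem IsKum.div_inL (hα : IsKum π ζ β α) (hα' : IsKum π ζ β α') : InL Γ π (α / α') := by
  intro s hs
  have h0 : ζ ^ (β ⟨s, hs⟩).val ≠ 0 := by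
    intro h
    have := hα.2 ⟨s, hs⟩
    rw [h, zero_mul] at this
    exact hα.1 ((smul_eq_zero_iff_eq s).mp this)
  rw [div_eq_mul_inv, smul_mul', smul_inv'', hα.2 ⟨s, hs⟩, hα'.2 ⟨s, hs⟩, ← div_eq_mul_inv,
    mul_div_mul_left _ _ h0, div_eq_mul_inv]

theorem IsKum.mul [NeZero p] (hζ : ζ ^ p = 1) (hα : IsKum π ζ β α) (hα' : IsKum π ζ β' α') :
    IsKum π ζ (β + β') (α * α') := by
  refine ⟨mul_ne_zero hα.1 hα'.1, fun x => ?_⟩
  rw [smul_mul', hα.2 x, hα'.2 x, Pi.add_apply, zeta_pow_val_add hζ]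
  ring

theorem IsKum.mul_inL (hα : IsKum π ζ β α) {y : C} (hy0 : y ≠ 0) (hy : InL Γ π y) :
    IsKum π ζ β (α * y) := by
  refine ⟨mul_ne_zero hα.1 hy0, fun x => ?_⟩
  rw [smul_mul', hα.2 x, hy x.1 x.2, mul_assoc]

theorem IsKum.eq_zero_of_pow [NeZero p] (hζ : IsPrimitiveRoot ζ p) (hζL : InL Γ π ζ)
    (hα : IsKum π ζ β α) {y : C} (hy : InL Γ π y) (hαy : α ^ p = y ^ p) : β = 0 := by
  have hy0 : y ≠ 0 := by
    rintro rfl
    rw [zero_pow (NeZero.ne p)] at hαy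
    exact hα.1 (pow_eq_zero_iff (NeZero.ne p) |>.mp hαy)
  have h1 : (α / y) ^ p = 1 := by
    rw [div_pow, hαy, div_self (pow_ne_zero _ hy0)]
  obtain ⟨j, -, hj⟩ := hζ.eq_pow_of_pow_eq_one h1
  have hαL : InL Γ π α := by
    have e : α = ζ ^ j * y := by rw [hj, div_mul_cancel₀ _ hy0]
    rw [e]
    exact (FixBy.pow hζL j).mul hy
  funext x
  have h2 := hα.2 x
  rw [hαL x.1 x.2] at h2
  have h3 : ζ ^ (β x).val = 1 := by
    have := mul_right_cancel₀ hα.1 ((one_mul α).trans h2)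
    exact this.symm
  have h4 := (hζ.pow_eq_one_iff_dvd _).mp h3
  have h5 : (β x).val = 0 := Nat.eq_zero_of_dvd_of_lt h4 (ZMod.val_lt _)
  exact (ZMod.val_eq_zero _).mp h5

theorem IsKum.map [NeZero p] (hζ : ζ ^ p = 1) (hα : IsKum π ζ β α) (σ : C →+* C)
    (cσ : ↥(stabilizer Γ π) → ↥(stabilizer Γ π)) (hsurj : Function.Surjective cσ)
    (hσ : ∀ (x : ↥(stabilizer Γ π)) (z : C), σ ((x : Γ) • z) = (cσ x : Γ) • σ z)
    {m : ℕ} (hm : σ ζ = ζ ^ m) (hβ' : ∀ x, β' (cσ x) = (m : ZMod p) * β x) :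
    IsKum π ζ β' (σ α) := by
  refine ⟨(map_ne_zero σ).mpr hα.1, fun x' => ?_⟩
  obtain ⟨x, rfl⟩ := hsurj x'
  rw [← hσ, hα.2 x, map_mul, map_pow, hm, hβ', zeta_pow_val_mul hζ]

end Fermat.Agent.S56.Font
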