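import Fermat.Agent.S56.Font.KT.LevBasic

/-!
# S56 / Font / KT / LevDead : the dead levels                        (WP KT-LEVD)

`γ = v π`, `γ^e = v p`, `c_i = v p γ^i`.  Tools: `IsU.exists_isLev`, `IsLev.isU_succ`, `IsLev.mul`, `IsLev.mul_pow`/multipliers, `exists_one_add_pow_eq`
(`(1+z)^p = 1 + z^p + p z S`, `v (S - 1) ≤ v z`), `exists_pow_near` (`KumNF.lean`), `exists_fixBy_root` (ROOT1), `IsSH.res`.
* `IsU.succ_of_dvd` (`p ∣ e + i`, `(p-1) i < e`): let `x` (fixed) be a leading coefficient.  If `v x < 1`: `isU_succ`.  Otherwise `exists_pow_near` for `- x`: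
  `d ∈ K₀`, `v d = 1`, `v (- x - d^p) < 1`.  `j := (e+i)/p > i`, `z := d π^j ∈ L`, `z^p = d^p π^(e+i) = p d^p π^i`, `v (p z S) ≤ v p γ^j < c_i`.  So
  `(1+z)^p` has leading coefficient `d^p` at level `i` (as an element: `IsLev i ((1+z)^p) (d^p)` with multiplier `1`), and
  `u (1+z)^p` has leading coefficient `x + d^p`, of valuation `< 1`: `IsU (i+1) (u (1+z)^p)`, hence `IsU (i+1) u` (absorb `(1+z)` in the multiplier).
* `IsU.succ_of_top` (`(p-1) i = e`): `z := d π^i`, `z^p = d^p π^(p i) = d^p π^(e+i) = p d^p π^i`, `p z S = p d π^i S`, `S ≡ 1`: `(1+z)^p` has leading coefficient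
  `d^p + d`.  Choose `d`: `d₀ ∈ C` a root of `T^p + T + x` (`IsAlgClosed.exists_root`), `v d₀ ≤ 1` (otherwise `v (d₀^p)` dominates), `IsSH.res`: `d` fixed,
  `v (d - d₀) < 1`, so `v (d^p + d + x) < 1`.
* `IsU.exists_pow_of_large` (`e < (p-1) i`): `u y^p ≡ 1 mod p τ`, `τ = γ^i`, `τ^(p-1) = γ^((p-1) i) < γ^e = v p`; ROOT1 with `N = Stab π`: `u y^p = ρ^p`; `u = (ρ/y)^p`.
-/

set_option autoImplicit false

namespace Fermat.Agent.S56.Font

open MulAction

variable {Γ : Type*} [Group Γ] {C : Type*} [Field C] [MulSemiringAction Γ C]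
  {Γ₀ : Type*} [LinearOrderedCommGroupWithZero Γ₀] {v : Valuation C Γ₀} {p : ℕ} {π : C} {e i : ℕ}
  {u : C}

/-- the common mechanism: kill the leading coefficient `x` of `u` by a `p`-th power `(1+z)^p` with leading
coefficient `t`, `v (x + t) < 1`. -/
theorem IsLev.isU_succ_of_one_add (h : IsSH Γ v (p : C)) (hπe : π ^ e = (p : C)) {x z t : C}
    (hx : IsLev Γ v p π i u x) (hzL : InL Γ π z) (hz1 : v z < 1) (ht : v t ≤ 1)
    (hzt : v ((1 + z) ^ p - (1 + p * t * π ^ i)) < v (p : C) * v π ^ i) (hxt : v (x + t) < 1) :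
    IsU Γ v p π (i + 1) u := by
  have hv1 : v (1 + z) = 1 := v.map_one_add_of_lt hz1
  have h10 : (1 + z) ≠ 0 := by rw [← v.ne_zero_iff, hv1]; exact one_ne_zero
  have h1L : InL Γ π (1 + z) := FixBy.add (Fix0.one.fixBy _) hzL
  have hlev : IsLev Γ v p π i ((1 + z) ^ p) t :=
    ⟨pow_ne_zero _ h10, FixBy.pow h1L p, ht, 1, one_ne_zero, Fix0.one.fixBy _, by
      rw [one_pow, mul_one]; exact hzt⟩
  have h2 := ((hx.mul h hπe hlev).isU_succ h hπe hxt).mul_pow (inv_ne_zero h10) (FixBy.inv h1L)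
  have h3 : u * (1 + z) ^ p * (1 + z)⁻¹ ^ p = u := by
    rw [mul_assoc, ← _root_.mul_pow, mul_inv_cancel₀ h10, one_pow, mul_one]
  rwa [h3] at h2

theorem IsU.succ_of_dvd [IsAlgClosed C] (hp : p.Prime) (h : IsSH Γ v (p : C)) (hπe : π ^ e = (p : C))
    (hd : p ∣ e + i) (hlt : (p - 1) * i < e) (hu : IsU Γ v p π i u) : IsU Γ v p π (i + 1) u := by
  obtain ⟨x, -, hxlev⟩ := hu.exists_isLev h hπe
  by_cases hx1 : v x < 1
  · exact hxlev.isU_succ h hπe hx1
  have hxv : v x = 1 := le_antisymm hxlev.2.2.1 (not_lt.1 hx1)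
  have hπ := isTot_of_pow_eq h hπe
  have hπ0 : π ≠ 0 := ne_zero_of_pow' h hπ.pow
  have hp0 : (p : C) ≠ 0 := h.ne_zero
  have hγ0 : 0 < v π := val_pos_of_pow h hπ.pow
  have hγ1 : v π < 1 := val_lt_one_of_pow h hπ.pow
  have hvp0 : 0 < v (p : C) := zero_lt_iff.2 ((v.ne_zero_iff).2 hp0)
  obtain ⟨d, hdfix, hdv, hdx⟩ := exists_pow_near h hp.ne_zero (u := -x) (by rw [Valuation.map_neg, hxv])
  obtain ⟨j, hj⟩ := hd
  have hij : i < j := by
    have h1 : (p - 1) * i + i = p * i := by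
      have := hp.one_lt
      obtain ⟨m, rfl⟩ : ∃ m, p = m + 1 := ⟨p - 1, by omega⟩
      simp only [Nat.add_sub_cancel]
      ring
    have h2 : p * i < p * j := by omega
    exact lt_of_mul_lt_mul_left h2 (Nat.zero_le _)
  have hzv : v (d * π ^ j) = v π ^ j := by rw [map_mul, hdv, one_mul, map_pow]
  have hz1 : v (d * π ^ j) < 1 := by rw [hzv]; exact pow_lt_one₀ zero_le hγ1 (by omega)
  obtain ⟨S, hS, hpow⟩ := exists_one_add_pow_eq hp v hz1.le
  have hS1 : v S ≤ 1 := by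
    have h1 : S = (S - 1) + 1 := by ring
    rw [h1]
    exact (v.map_add _ _).trans (max_le (hS.trans hz1.le) (by rw [map_one]))
  refine hxlev.isU_succ_of_one_add h hπe (z := d * π ^ j) (t := d ^ p)
    (FixBy.mul (hdfix.fixBy _) (FixBy.pow (fixBy_stabilizer π) j)) hz1
    (by rw [map_pow, hdv, one_pow]) ?_ ?_
  · have hzp : (d * π ^ j) ^ p = p * d ^ p * π ^ i := by
      rw [_root_.mul_pow, ← pow_mul, mul_comm j p, ← hj, pow_add, hπe]; ring
    have h1 : (1 + d * π ^ j) ^ p - (1 + p * d ^ p * π ^ i) = p * (d * π ^ j) * S := by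
      rw [hpow, hzp]; ring
    rw [h1, map_mul, map_mul, hzv]
    calc v (p : C) * v π ^ j * v S ≤ v (p : C) * v π ^ j * 1 := by gcongr
      _ = v (p : C) * v π ^ j := mul_one _
      _ < v (p : C) * v π ^ i := by
          exact mul_lt_mul_of_pos_left (pow_lt_pow_right_of_lt_one₀ hγ0 hγ1 hij) hvp0
  · have h1 : x + d ^ p = -(-x - d ^ p) := by ring
    rw [h1, Valuation.map_neg]
    exact hdx

theorem IsU.succ_of_top [IsAlgClosed C] (hp : p.Prime) (h : IsSH Γ v (p : C)) (hπe : π ^ e = (p : C))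
    (htop : (p - 1) * i = e) (hu : IsU Γ v p π i u) : IsU Γ v p π (i + 1) u := by
  obtain ⟨x, -, hxlev⟩ := hu.exists_isLev h hπe
  have hx1 : v x ≤ 1 := hxlev.2.2.1
  have hπ := isTot_of_pow_eq h hπe
  have hπ0 : π ≠ 0 := ne_zero_of_pow' h hπ.pow
  have hp0 : (p : C) ≠ 0 := h.ne_zero
  have hγ0 : 0 < v π := val_pos_of_pow h hπ.pow
  have hγ1 : v π < 1 := val_lt_one_of_pow h hπ.pow
  have hc := lev_c_pos (v := v) hπ0 hp0 i
  have he0 : e ≠ 0 := hπ.ne_zero_n h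
  have hi0 : i ≠ 0 := by
    rintro rfl
    exact he0 (by rw [← htop, mul_zero])
  -- a root of `T^p + T + x`
  obtain ⟨d₀, hd₀⟩ : ∃ d₀ : C, d₀ ^ p + d₀ + x = 0 := by
    have hdeg : (Polynomial.X ^ p + Polynomial.X + Polynomial.C x : Polynomial C).degree ≠ 0 := by
      have h1 : (Polynomial.X ^ p + (Polynomial.X + Polynomial.C x) : Polynomial C).degree = p := by
        rw [Polynomial.degree_add_eq_left_of_degree_lt, Polynomial.degree_X_pow]
        rw [Polynomial.degree_X_add_C, Polynomial.degree_X_pow]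
        exact_mod_cast hp.one_lt
      rw [add_assoc, h1]
      exact_mod_cast hp.ne_zero
    obtain ⟨d₀, hd₀⟩ := IsAlgClosed.exists_root _ hdeg
    refine ⟨d₀, ?_⟩
    simpa [Polynomial.IsRoot] using hd₀
  have hd₀1 : v d₀ ≤ 1 := by
    by_contra hcon
    rw [not_le] at hcon
    have h1 : d₀ ^ p = -(d₀ + x) := by linear_combination hd₀
    have h2 : v d₀ ^ p ≤ v d₀ := by
      rw [← map_pow, h1, Valuation.map_neg]
      exact (v.map_add _ _).trans (max_le le_rfl (hx1.trans hcon.le))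
    have h3 : v d₀ < v d₀ ^ p := by
      calc v d₀ = v d₀ ^ 1 := (pow_one _).symm
        _ < v d₀ ^ p := pow_lt_pow_right₀ hcon hp.one_lt
    exact absurd h2 (not_le.2 h3)
  obtain ⟨d, hdfix, hdd⟩ := h.res d₀ hd₀1
  have hd1 : v d ≤ 1 := by
    have h1 : d = d₀ - (d₀ - d) := by ring
    rw [h1]
    exact (v.map_sub _ _).trans (max_le hd₀1 hdd.le)
  have hdx : v (x + (d ^ p + d)) < 1 := by
    have h1 : x + (d ^ p + d) = -((d₀ ^ p - d ^ p) + (d₀ - d)) := by linear_combination hd₀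
    rw [h1, Valuation.map_neg]
    refine (v.map_add _ _).trans_lt (max_lt ?_ hdd)
    rw [← geom_sum₂_mul, map_mul]
    refine lt_of_le_of_lt (mul_le_of_le_one_left zero_le ?_) hdd
    refine Valuation.map_sum_le v fun k _ => ?_
    rw [map_mul, map_pow, map_pow]
    exact mul_le_one' (pow_le_one₀ zero_le hd₀1) (pow_le_one₀ zero_le hd1)
  have hzv : v (d * π ^ i) ≤ v π ^ i := by
    rw [map_mul, map_pow]; exact mul_le_of_le_one_left zero_le hd1
  have hz1 : v (d * π ^ i) < 1 := lt_of_le_of_lt hzv (pow_lt_one₀ zero_le hγ1 hi0)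
  obtain ⟨S, hS, hpow⟩ := exists_one_add_pow_eq hp v hz1.le
  refine hxlev.isU_succ_of_one_add h hπe (z := d * π ^ i) (t := d ^ p + d)
    (FixBy.mul (hdfix.fixBy _) (FixBy.pow (fixBy_stabilizer π) i)) hz1
    ((v.map_add _ _).trans (max_le (by rw [map_pow]; exact pow_le_one₀ zero_le hd1) hd1)) ?_ hdx
  have hpi : i * p = e + i := by
    have := hp.one_lt
    obtain ⟨m, rfl⟩ : ∃ m, p = m + 1 := ⟨p - 1, by omega⟩
    simp only [Nat.add_sub_cancel] at htop
    rw [← htop]; ring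
  have hzp : (d * π ^ i) ^ p = p * d ^ p * π ^ i := by
    rw [_root_.mul_pow, ← pow_mul, hpi, pow_add, hπe]; ring
  have h1 : (1 + d * π ^ i) ^ p - (1 + p * (d ^ p + d) * π ^ i) = (p * π ^ i) * (d * (S - 1)) := by
    rw [hpow, hzp]; ring
  rw [h1, map_mul, map_mul, map_pow]
  refine mul_lt_of_lt_one_right hc ?_
  rw [map_mul]
  exact lt_of_le_of_lt (mul_le_of_le_one_left zero_le hd1) (lt_of_le_of_lt hS hz1)

theorem IsU.exists_pow_of_large [IsAlgClosed C] (hp : p.Prime) (h : IsSH Γ v (p : C))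
    (hπe : π ^ e = (p : C)) (hbig : e < (p - 1) * i) (hu : IsU Γ v p π i u) :
    ∃ y : C, y ≠ 0 ∧ InL Γ π y ∧ u = y ^ p := by
  obtain ⟨hu0, huL, y, hy0, hyL, hy⟩ := hu
  have hπ := isTot_of_pow_eq h hπe
  have hγ0 : 0 < v π := val_pos_of_pow h hπ.pow
  have hγ1 : v π < 1 := val_lt_one_of_pow h hπ.pow
  have hτ : (v π ^ i) ^ (p - 1) < v (p : C) := by
    rw [← pow_mul, ← hπ.pow, mul_comm]
    exact pow_lt_pow_right_of_lt_one₀ hγ0 hγ1 hbig
  obtain ⟨ρ, hρL, hρ⟩ := exists_fixBy_root hp h.inv (N := stabilizer Γ π) (u := u * y ^ p)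
    (FixBy.mul huL (FixBy.pow hyL p)) hτ hy
  have hρ0 : ρ ≠ 0 := by
    rintro rfl
    rw [zero_pow hp.ne_zero] at hρ
    exact mul_ne_zero hu0 (pow_ne_zero _ hy0) hρ.symm
  refine ⟨ρ * y⁻¹, mul_ne_zero hρ0 (inv_ne_zero hy0), FixBy.mul hρL (FixBy.inv hyL), ?_⟩
  rw [_root_.mul_pow, hρ, inv_pow, mul_assoc, mul_inv_cancel₀ (pow_ne_zero _ hy0), mul_one]

end Fermat.Agent.S56.Font
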