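import Mathlib

/-!
# S56 / Font / KT / Num : which level can carry which character (pure algebra, Mathlib only)           (WP KT-NUM)

`p` an odd prime, `e = p^2 - 1`, `κ` a field of characteristic `p`, `k` a field of characteristic `p`, `S` a set (the inertia group),
`ϑ : S → κ` (the tame character `s ↦ s π/π mod m`), `ϑ s ≠ 0`, of exact order `e`: `hord : (∀ s, ϑ s ^ m = 1) → e ∣ m`; `ω : S → ZMod p` with
`hω : ϑ s ^ (p+1) = ω s` (cast to `κ`).  `x : k → κ` additive, `x ≠ 0`, `ν : S → k`, `i ≤ p` and  (E1) `x (ν s * a) = ϑ s ^ i * x a`.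
Additivity ⟹ `x ((n : k) * a) = (n : κ) * x a` for `n : ℕ`, hence the same for `n : ZMod p` (casts `ZMod.cast`/`ZMod.castHom`; write `ω s = ((ω s).val : ZMod p)`, `ZMod.natCast_zmod_val`).
 (a) `false_of_nu_eq_omega` : `ν s = ω s` for all `s` ⟹ False.   [pick `x a ≠ 0`: `ϑ s^(p+1) x a = ϑ s^i x a`, so `ϑ s^(p+1-i) = 1` for all `s` (cancel `ϑ s^i ≠ 0`), `e ∣ p+1-i`, `0 < p+1-i ≤ p+1 < e`.]
 (b) `level_eq_two` : `ν s^(p+1) = (ω s)^2` for all `s`, and `ν s₀ ≠ 1` for some `s₀` ⟹ `i = 2`.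
     [iterate (E1): `x (ν s^n a) = ϑ s^(i n) x a`.  `n = p+1`: `ϑ s^(2(p+1)) x a = ϑ s^(i(p+1)) x a`; so `ϑ s^((p+1)|i-2|) = 1`, `p^2-1 ∣ (p+1)|i-2|`, `p-1 ∣ |i-2|`, `i ≤ p`: `i = 2`, or `i = 0` and `p = 3`
      (`|i-2| ∈ {0, p-1, ..}`; `i = 2 + (p-1) = p+1 > p`; `2 - i = p-1` ⟹ `i = 3 - p`).  If `i = 0`: `x (ν s₀ a) = x a`, `x ((ν s₀ - 1) a) = 0` for all `a`, `ν s₀ - 1 ≠ 0` ⟹ `x = 0`.]
 (c) `exists_theta_sq_not_frob_fixed` : there is `s` with `(ϑ s^2)^p ≠ ϑ s^2`.   [otherwise `ϑ s^(2(p-1)) = 1` for all `s`, `p^2-1 ∣ 2(p-1)`, `p+1 ∣ 2`.]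
-/

set_option autoImplicit false
set_option linter.unusedSectionVars false

namespace Fermat.Agent.S56.Font

variable {p : ℕ} {k κ : Type*} [Field k] [CharP k p] [Field κ] [CharP κ p] {S : Type*}
  {ϑ : S → κ} {ω : S → ZMod p} {ν : S → k} {x : k → κ} {i : ℕ}

omit [CharP k p] [CharP κ p] in
lemma num_map_zero (hadd : ∀ a a', x (a + a') = x a + x a') : x 0 = 0 := by
  have h := hadd 0 0
  rw [add_zero] at h
  exact left_eq_add.1 h

omit [CharP k p] [CharP κ p] in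
lemma num_map_natCast_mul (hadd : ∀ a a', x (a + a') = x a + x a') (n : ℕ) (a : k) :
    x ((n : k) * a) = (n : κ) * x a := by
  induction n with
  | zero => simp [num_map_zero hadd]
  | succ n ih => rw [Nat.cast_succ, add_mul, one_mul, hadd, ih, Nat.cast_succ, add_mul, one_mul]

omit [CharP k p] [CharP κ p] in
lemma num_map_sub (hadd : ∀ a a', x (a + a') = x a + x a') (a b : k) : x (a - b) = x a - x b := by
  have h := hadd (a - b) b
  rw [sub_add_cancel] at h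
  rw [h, add_sub_cancel_right]

omit [CharP k p] [CharP κ p] in
lemma num_iterate (hE : ∀ s a, x (ν s * a) = ϑ s ^ i * x a) (s : S) (n : ℕ) (a : k) :
    x (ν s ^ n * a) = ϑ s ^ (i * n) * x a := by
  induction n with
  | zero => simp
  | succ n ih => rw [pow_succ', mul_assoc, hE, ih, ← mul_assoc, ← pow_add, Nat.mul_succ, add_comm]

omit [CharP κ p] in
lemma num_pow_eq_one_of_le (hϑ0 : ∀ s, ϑ s ≠ 0) {m n : ℕ} (hmn : m ≤ n) (s : S)
    (h : ϑ s ^ n = ϑ s ^ m) : ϑ s ^ (n - m) = 1 := by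
  have h1 : ϑ s ^ m * ϑ s ^ (n - m) = ϑ s ^ m * 1 := by
    rw [← pow_add, Nat.add_sub_cancel' hmn, h, mul_one]
  exact mul_left_cancel₀ (pow_ne_zero _ (hϑ0 s)) h1

lemma num_three_le (hp : p.Prime) (hp2 : p ≠ 2) : 3 ≤ p := by
  have := hp.two_le
  omega

lemma num_e_eq : p ^ 2 - 1 = (p - 1) * (p + 1) := by
  rcases p with _ | p
  · rfl
  · simp only [Nat.add_sub_cancel]
    have : (p + 1) ^ 2 = p * (p + 1 + 1) + 1 := by ring
    rw [this, Nat.add_sub_cancel]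

theorem false_of_nu_eq_omega (hp : p.Prime) (hp2 : p ≠ 2) (hϑ0 : ∀ s, ϑ s ≠ 0)
    (hord : ∀ m : ℕ, (∀ s, ϑ s ^ m = 1) → (p ^ 2 - 1) ∣ m)
    (hω : ∀ s, ϑ s ^ (p + 1) = ((ω s).val : κ))
    (hadd : ∀ a a', x (a + a') = x a + x a') (hx : ∃ a, x a ≠ 0) (hi : i ≤ p)
    (hE : ∀ s a, x (ν s * a) = ϑ s ^ i * x a) (hν : ∀ s, ν s = ((ω s).val : k)) : False := by
  obtain ⟨a, ha⟩ := hx
  have h3 := num_three_le hp hp2
  have h1 : ∀ s, ϑ s ^ (p + 1 - i) = 1 := by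
    intro s
    apply num_pow_eq_one_of_le hϑ0 (by omega)
    have h2 := hE s a
    rw [hν, num_map_natCast_mul hadd, ← hω] at h2
    exact mul_right_cancel₀ ha h2
  have h2 := Nat.le_of_dvd (by omega) (hord _ h1)
  rw [num_e_eq] at h2
  have h4 : 2 * (p + 1) ≤ (p - 1) * (p + 1) := Nat.mul_le_mul_right _ (by omega)
  omega

theorem level_eq_two (hp : p.Prime) (hp2 : p ≠ 2) (hϑ0 : ∀ s, ϑ s ≠ 0)
    (hord : ∀ m : ℕ, (∀ s, ϑ s ^ m = 1) → (p ^ 2 - 1) ∣ m)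
    (hω : ∀ s, ϑ s ^ (p + 1) = ((ω s).val : κ))
    (hadd : ∀ a a', x (a + a') = x a + x a') (hx : ∃ a, x a ≠ 0) (hi : i ≤ p)
    (hE : ∀ s a, x (ν s * a) = ϑ s ^ i * x a) (hν : ∀ s, ν s ^ (p + 1) = (((ω s).val : k)) ^ 2)
    (hν1 : ∃ s, ν s ≠ 1) : i = 2 := by
  obtain ⟨a, ha⟩ := hx
  have h3 := num_three_le hp hp2
  have h1 : ∀ s, ϑ s ^ (2 * (p + 1)) = ϑ s ^ (i * (p + 1)) := by
    intro s
    have h2 := num_iterate hE s (p + 1) a
    rw [hν, sq, mul_assoc, num_map_natCast_mul hadd, num_map_natCast_mul hadd, ← hω, ← mul_assoc,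
      ← pow_add, ← two_mul] at h2
    exact mul_right_cancel₀ ha h2
  have hpos : 0 < p + 1 := by omega
  rcases le_total 2 i with h2i | h2i
  · have h4 : ∀ s, ϑ s ^ ((i - 2) * (p + 1)) = 1 := by
      intro s
      rw [Nat.sub_mul]
      exact num_pow_eq_one_of_le hϑ0 (Nat.mul_le_mul_right _ h2i) s (h1 s).symm
    have h5 := hord _ h4
    rw [num_e_eq] at h5
    have h6 : (p - 1) ∣ (i - 2) := Nat.dvd_of_mul_dvd_mul_right hpos h5
    by_contra hne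
    have h7 := Nat.le_of_dvd (by omega) h6
    omega
  · have h4 : ∀ s, ϑ s ^ ((2 - i) * (p + 1)) = 1 := by
      intro s
      rw [Nat.sub_mul]
      exact num_pow_eq_one_of_le hϑ0 (Nat.mul_le_mul_right _ h2i) s (h1 s)
    have h5 := hord _ h4
    rw [num_e_eq] at h5
    have h6 : (p - 1) ∣ (2 - i) := Nat.dvd_of_mul_dvd_mul_right hpos h5
    by_contra hne
    have h7 := Nat.le_of_dvd (by omega) h6
    have hi0 : i = 0 := by omega
    subst hi0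
    obtain ⟨s₀, hs₀⟩ := hν1
    have h8 : ν s₀ - 1 ≠ 0 := sub_ne_zero.2 hs₀
    apply ha
    have h9 : a = (ν s₀ - 1) * ((ν s₀ - 1)⁻¹ * a) := by
      rw [← mul_assoc, mul_inv_cancel₀ h8, one_mul]
    rw [h9, sub_mul, one_mul, num_map_sub hadd, hE, pow_zero, one_mul, sub_self]

theorem exists_theta_sq_not_frob_fixed (hp : p.Prime) (hp2 : p ≠ 2) (hϑ0 : ∀ s, ϑ s ≠ 0)
    (hord : ∀ m : ℕ, (∀ s, ϑ s ^ m = 1) → (p ^ 2 - 1) ∣ m) :
    ∃ s, (ϑ s ^ 2) ^ p ≠ ϑ s ^ 2 := by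
  by_contra hcon
  push Not at hcon
  have h3 := num_three_le hp hp2
  have h1 : ∀ s, ϑ s ^ (2 * p - 2) = 1 := by
    intro s
    apply num_pow_eq_one_of_le hϑ0 (by omega)
    rw [pow_mul]
    exact hcon s
  have h2 := Nat.le_of_dvd (by omega) (hord _ h1)
  rw [num_e_eq] at h2
  have h4 : (p - 1) * 4 ≤ (p - 1) * (p + 1) := Nat.mul_le_mul_left _ (by omega)
  omega

end Fermat.Agent.S56.Font
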