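import Fermat.Agent.S56.Font.KT.Theta

/-!
# S56 / Font / KT / ThetaB : `ω = tht^(e/(p-1))`                 (WP KT-THETA-B)

See PART B of the header of `Theta.lean` for the proofs (work against the statements of part A).
-/

set_option autoImplicit false

namespace Fermat.Agent.S56.Font

open MulAction

variable {Γ : Type*} [Group Γ] {C : Type*} [Field C] [MulSemiringAction Γ C]
  {Γ₀ : Type*} [LinearOrderedCommGroupWithZero Γ₀] {v : Valuation C Γ₀} {p : ℕ} {π : C} {e : ℕ}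

open ThetaAux

namespace ThetaAux

theorem val_pow_sub_one_le (v : Valuation C Γ₀) {ζ : C} (hζ : v ζ = 1) (i : ℕ) :
    v (ζ ^ i - 1) ≤ v (ζ - 1) := by
  rw [← mul_geom_sum, map_mul]
  exact mul_le_of_le_one_right zero_le (ResAux.val_geom_le hζ i)

end ThetaAux

section B

variable {ζ : C} {e' : ℕ}

theorem val_zeta_sub_one_pow' (hp : p.Prime) (v : Valuation C Γ₀) (hζ : IsPrimitiveRoot ζ p) :
    v (ζ - 1) ^ (p - 1) = v (p : C) := by
  have h1 : (p : C) = ∏ μ ∈ primitiveRoots p C, (1 - μ) := by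
    have h2 := Polynomial.cyclotomic_eq_prod_X_sub_primitiveRoots hζ
    have h3 := congrArg (Polynomial.eval 1) h2
    rw [Polynomial.eval_one_cyclotomic_prime (hn := ⟨hp⟩), Polynomial.eval_prod] at h3
    simpa using h3
  have h4 : ∀ μ ∈ primitiveRoots p C, v (1 - μ) = v (ζ - 1) := by
    intro μ hμ
    have hμp : IsPrimitiveRoot μ p := (mem_primitiveRoots hp.pos).1 hμ
    have : NeZero p := ⟨hp.ne_zero⟩
    obtain ⟨i, -, hi⟩ := hζ.eq_pow_of_pow_eq_one hμp.pow_eq_one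
    obtain ⟨j, -, hj⟩ := hμp.eq_pow_of_pow_eq_one hζ.pow_eq_one
    rw [Valuation.map_sub_swap]
    refine le_antisymm ?_ ?_
    · rw [← hi]
      exact val_pow_sub_one_le v (ResAux.val_eq_one_of_pow_eq_one hp.ne_zero hζ.pow_eq_one) i
    · rw [← hj]
      exact val_pow_sub_one_le v (ResAux.val_eq_one_of_pow_eq_one hp.ne_zero hμp.pow_eq_one) j
  rw [h1, map_prod, Finset.prod_congr rfl h4, Finset.prod_const, hζ.card_primitiveRoots,
    Nat.totient_prime hp]

theorem val_tht_pow_sub (hp : p.Prime) (h : IsSH Γ v (p : C)) (hπe : π ^ e = (p : C))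
    (he : e = (p - 1) * e') (hζ : IsPrimitiveRoot ζ p) (s : Γ) {m : ℕ} (hm : s • ζ = ζ ^ m) :
    v (tht π s ^ e' - (m : C)) < 1 := by
  have hp1 : p - 1 ≠ 0 := by have := hp.two_le; omega
  have hζv : v ζ = 1 := ResAux.val_eq_one_of_pow_eq_one hp.ne_zero hζ.pow_eq_one
  have hζ1 : ζ ≠ 1 := hζ.ne_one hp.one_lt
  have hl0 : ζ - 1 ≠ 0 := sub_ne_zero.2 hζ1
  have hlp := val_zeta_sub_one_pow' hp v hζ
  have hl1 : v (ζ - 1) < 1 := by
    by_contra hh
    have h1 : 1 ≤ v (ζ - 1) ^ (p - 1) := one_le_pow₀ (not_lt.1 hh)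
    rw [hlp] at h1
    exact absurd h.lt_one (not_lt.2 h1)
  have hπ0 := pi_ne_zero h hπe
  set G : C := ∑ k ∈ Finset.range m, ζ ^ k with hG
  have hGv : v G ≤ 1 := ResAux.val_geom_le hζv m
  have hGm : v (G - (m : C)) < 1 := by
    have e1 : G - (m : C) = ∑ k ∈ Finset.range m, (ζ ^ k - 1) := by
      rw [Finset.sum_sub_distrib, Finset.sum_const, Finset.card_range, nsmul_eq_mul, mul_one]
    rw [e1]
    exact Valuation.map_sum_lt v one_ne_zero fun k _ => (val_pow_sub_one_le v hζv k).trans_lt hl1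
  have hsl : s • (ζ - 1) = (ζ - 1) * G := by
    rw [smul_sub, smul_one, hm, hG, mul_geom_sum]
  -- `λ = π ^ e'`
  have hlam : v (π ^ e') = v (ζ - 1) := by
    have h1 : v (π ^ e') ^ (p - 1) = v (ζ - 1) ^ (p - 1) := by
      rw [hlp, ← hπe, he, map_pow, map_pow, ← pow_mul, mul_comm]
    exact (pow_left_inj₀ zero_le zero_le hp1).1 h1
  set ε : C := π ^ e' / (ζ - 1) with hε
  have hεv : v ε = 1 := by
    rw [hε, map_div₀, hlam, div_self ((v.ne_zero_iff).2 hl0)]
  have hε0 : ε ≠ 0 := by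
    intro h0
    rw [h0, map_zero] at hεv
    exact zero_ne_one hεv
  have hεs : v (s • ε / ε - 1) < 1 := by
    have e1 : s • ε / ε - 1 = (s • ε - ε) / ε := by field_simp
    rw [e1, map_div₀, hεv, div_one]
    exact val_smul_sub_lt_one h s hεv.le
  have hle : π ^ e' = ε * (ζ - 1) := by rw [hε, div_mul_cancel₀ _ hl0]
  have htht : tht π s ^ e' = (s • ε / ε) * G := by
    rw [tht, div_pow, ← smul_pow', hle, smul_mul', hsl]
    field_simp
  have e2 : tht π s ^ e' - (m : C) = (s • ε / ε - 1) * G + (G - (m : C)) := by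
    rw [htht]; ring
  rw [e2]
  refine lt_of_le_of_lt (v.map_add _ _) (max_lt ?_ hGm)
  rw [map_mul]
  exact lt_of_le_of_lt (mul_le_of_le_one_right zero_le hGv) hεs

theorem smul_zeta_of_mem_stabilizer (hp : p.Prime) (h : IsSH Γ v (p : C)) (hπe : π ^ e = (p : C))
    (he : e = (p - 1) * e') (hζ : IsPrimitiveRoot ζ p) {x : Γ} (hx : x ∈ stabilizer Γ π) :
    x • ζ = ζ := by
  have : NeZero p := ⟨hp.ne_zero⟩
  obtain ⟨m, hmp, hm⟩ := hζ.eq_pow_of_pow_eq_one (ξ := x • ζ)
    (by rw [← smul_pow', hζ.pow_eq_one, smul_one])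
  have h1 := val_tht_pow_sub hp h hπe he hζ x hm.symm
  rw [(tht_eq_one_iff h hπe x).2 hx, one_pow] at h1
  rcases Nat.eq_zero_or_pos m with rfl | hm0
  · simp at h1
  · have h2 : v (((m - 1 : ℕ) : C)) < 1 := by
      rw [Nat.cast_sub hm0, Nat.cast_one, Valuation.map_sub_swap]
      exact h1
    have h3 : p ∣ m - 1 := by
      by_contra hnd
      exact absurd (val_natCast_eq_one hp h.lt_one hnd) h2.ne
    have h4 : m - 1 = 0 := Nat.eq_zero_of_dvd_of_lt h3 (by omega)
    have h5 : m = 1 := by omega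
    rw [← hm, h5, pow_one]

end B

end Fermat.Agent.S56.Font
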