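import Fermat.Agent.S56.Font.KT.Lc
import Fermat.Agent.S56.Font.KT.LevDead
import Fermat.Agent.S56.Font.KT.ThetaB
import Fermat.Agent.S56.Font.KT.Kummer
import Fermat.Agent.S56.Font.KT.CntAlg
import Fermat.Agent.S56.Font.KT.Num

/-!
# S56 / Font / KT / KP : the abstract count for the irreducible (supersingular) case

`(Γ, C, v, p)` strictly henselian, `C` algebraically closed, `p` odd, `π^(p²-1) = p`, `N' = Stab π`, `L = C^{N'}`, `ζ` a primitive `p`-th root of unity,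
`s ζ = ζ^(ω s)`.  `k` a finite field of characteristic `p`, `t : k →+ ZMod p` nonzero.
`Peu v π ζ b` (`b : N' → k`): for every additive `l : k → ZMod p` the character `ζ^(l ∘ b)` of `N'` has a Kummer generator `y` with `y^p ∈ 1 + p O_C`.

* `kp_zero` : `Peu b`, `b (s x s⁻¹) = b x` for `s ∈ Γ` ⟹ `b = 0`.
* `kp_card` : a `k`-space `𝔅` of `b`'s with `Peu b`, `b (s x s⁻¹) = χ s * b x`, `χ^(p+1) = 1`, `χ ≠ ω`, `b ∘ cΦ = b` for a "Frobenius squared" `Φ` fixing `π` ⟹ `#𝔅 ≤ #k`.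

## PROOFS  (three WPs: KP-A = sections General(rest)+ClassA, KP-B = section FamB, KP-C = section Main; each works against the STATEMENTS of the previous ones)
KP-A. `cl β = (chosen y)^p` (`dif_pos`, `Exists.choose_spec`).  `rel_cl` = `IsKum.rel`; `isU_cl` = `IsKum.isU_zero`; `cl_add` = `IsKum.rel_mul`; `cl_map`: `σ (y^p) = (σ y)^p`, `IsKum.map` then `rel_cl`;
   `cl_smul`: `σ = MulSemiringAction.toRingHom Γ C s`, `cσ x = ⟨s x s⁻¹, conj_mem_stabilizer ..⟩`, surjective (preimage `s⁻¹ x s`, `conj_mem_stabilizer` for `s⁻¹`), `s (x z) = (s x s⁻¹) (s z)` (`mul_smul`, `inv_smul_smul`);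
   `eq_zero` = `IsKum.eq_zero_of_pow`.
KP-B. `peuC`: `l = t.comp (AddMonoidHom.mulLeft a)`.  `exists_t`: `ZMod.algebra k p`, `Module.forall_dual_apply_eq_zero_iff (ZMod p) (1 : k)` gives a linear `φ` with `φ 1 ≠ 0`; if `z ≠ 0`, `a = z⁻¹`.
   `exists_omega`: `(s ζ)^p = 1`, `IsPrimitiveRoot.eq_pow_of_pow_eq_one` gives `j < p`; `ω s = (j : ZMod p)`, `ZMod.val_natCast_of_lt`.
   `eq_zero_of_pow`: `PeuC.eq_zero` gives `fam t b a = 0` for all `a`; `ht`.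
   `lc_kw_add_*`: `fam t b (a+a') = fam t b a + fam t b a'` (funext, `add_mul`, `map_add`), `PeuC.cl_add`, `Rel.lc_eq`, `lc_mul`, (`IsU.mul` for the hypothesis of `Rel.lc_eq`; `v π ≤ 1` from `π^e = p`, `e ≠ 0` by hl2).
   `kw_smul`: `fam t (c • b) a = fam t b (c * a)` (`mul_assoc`, `mul_comm`).
   `lc_kw_smul`: `PeuC.cl_smul` with `β = fam t b a`, `β' = fam t b (m c⁻¹ a)`: `t (m c⁻¹ a (c b x)) = t (m (a b x)) = m t (a b x)` (`map_nsmul`/`nsmul_eq_mul`, `Nat.cast` in `k`); so `Rel (s • kw a) (kw (m c⁻¹ a))`; `Rel.symm`,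
      `Rel.lc_eq` (with `isU_smul`), `lc_smul`.
   `lc_kw_frob`: `hΦL` : `InL z → InL (Φ z)` (write `y = cΦ x`).  `PeuC.cl_map` with `β = fam t b a`, `β' = fam t b (m a)`; `lc (Φ (kw a)) = lc (kw a)^q` (`lc_frob`) `= lc (kw (m a)) = m lc (kw a)` (induction on `m` with
      `lc_kw_add_right`; `lc (kw 0) = 0` from additivity).   (`IsU i (Φ u)`: from `Rel.isU`.)
KP-C. `e = p²-1 = (p-1)(p+1)`, `¬ p ∣ e`.  `theta_facts`: `val_tht`, `rs_eq_zero_iff`; `rs_pow`, `rs_one`, `rs_eq_iff`, `dvd_of_tht_pow`; `val_tht_pow_sub` (`e' = p+1`), `rs_natCast`.   `haveI := charP_kap hp h.lt_one`-type instance.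
   `ζ ∈ L`: `smul_zeta_of_mem_stabilizer`.   `t` from `exists_t`, `ω` from `exists_omega`.
   `kp_zero`: `exists_min_level` for `w = kw t b`.  Alt 1: `Peu.eq_zero_of_pow`.  Alt 2 (level `i`, `(p-1) i < (p-1)(p+1)` so `i ≤ p`): `x a := lc i (kw a)`, additive, `x ≠ 0` (`lc_eq_zero_iff`), (E1) with `c = 1`:
      `false_of_nu_eq_omega` with `ν s = ((ω s).val : k)`.
   `kp_card`: `ν s := ((ω s).val : k) * (χ s)⁻¹`; `ν s^(p+1) = ((ω s).val : k)^2` (`(n : k)^p = n`: `frobenius_natCast`/`CharP`...), `ν s₁ ≠ 1` from `hχω` (`ζ^m = ζ^(ω s).val ⟹ (m : k) = ((ω s).val : k)`: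
      `IsPrimitiveRoot.pow_inj`/`pow_eq_pow_iff_modEq`, `CharP.natCast_eq_natCast`).
      STEP 1: for `b ∈ 𝔅` all `kw t b a` are `IsU 2`: `exists_min_level`; alt 1: `isU_pow`; alt 2: `level_eq_two` gives `i = 2`.
      STEP 2: level `2` is live (`¬ p ∣ p²-1+2`, `(p-1) 2 < p²-1`).  `X b a := lc 2 (kw t b a)`; apply `card_le_of_semilinear` with `s₀` from `exists_theta_sq_not_frob_fixed`, `ν₀ = ν s₀`, `ϑ₀ = rs (tht s₀)^2`,
      `c₀ = (m : Kap v)` where `Φ ζ = ζ^m` (`Φ ζ` is a `p`-th root of unity).  `hinj`: `X b = 0` ⟹ all `IsU 3` (`lc_eq_zero_iff`) ⟹ alt 2 of `exists_min_level` impossible (there `i = 2` again) ⟹ alt 1 ⟹ `b = 0`.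
-/

set_option autoImplicit false

namespace Fermat.Agent.S56.Font

open MulAction

variable {Γ : Type*} [Group Γ] {C : Type*} [Field C] [MulSemiringAction Γ C]
  {Γ₀ : Type*} [LinearOrderedCommGroupWithZero Γ₀] {v : Valuation C Γ₀} {p : ℕ} {π ζ : C}
  {k : Type*} [Field k]

/-- peu ramifié, in EXISTS form (helper57). -/
def Peu (p : ℕ) (v : Valuation C Γ₀) (π ζ : C) (b : ↥(stabilizer Γ π) → k) : Prop :=
  ∀ l : k →+ ZMod p, ∃ y : C, IsKum π ζ (fun x => l (b x)) y ∧ v (y ^ p - 1) ≤ v (p : C)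

/-- `u` and `u'` have the same class in `L^×/L^{×p}`. -/
def Rel (Γ : Type*) [Group Γ] [MulSemiringAction Γ C] (p : ℕ) (π u u' : C) : Prop :=
  ∃ z : C, z ≠ 0 ∧ InL Γ π z ∧ u = u' * z ^ p

section General

variable {e : ℕ}

/-- the minimal level of a family of classes. -/
theorem exists_min_level [IsAlgClosed C] (hp : p.Prime) (h : IsSH Γ v (p : C)) (hπe : π ^ e = (p : C))
    {ι : Type*} (w : ι → C) (h0 : ∀ a, IsU Γ v p π 0 (w a)) :
    (∀ a, ∃ y : C, y ≠ 0 ∧ InL Γ π y ∧ w a = y ^ p) ∨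
    ∃ i : ℕ, ¬ p ∣ e + i ∧ (p - 1) * i < e ∧ (∀ a, IsU Γ v p π i (w a)) ∧
      ∃ a, ¬ IsU Γ v p π (i + 1) (w a) := by
  have key : ∀ n : ℕ, (∀ a, IsU Γ v p π n (w a)) ∨
      ∃ i : ℕ, ¬ p ∣ e + i ∧ (p - 1) * i < e ∧ (∀ a, IsU Γ v p π i (w a)) ∧
        ∃ a, ¬ IsU Γ v p π (i + 1) (w a) := by
    intro n
    induction n with
    | zero => exact Or.inl h0
    | succ n ih =>
      rcases ih with hn | hex
      · by_cases hn1 : ∀ a, IsU Γ v p π (n + 1) (w a)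
        · exact Or.inl hn1
        · right
          push Not at hn1
          obtain ⟨a, ha⟩ := hn1
          rcases lt_trichotomy ((p - 1) * n) e with hlt | heq | hgt
          · by_cases hd : p ∣ e + n
            · exact absurd ((hn a).succ_of_dvd hp h hπe hd hlt) ha
            · exact ⟨n, hd, hlt, hn, a, ha⟩
          · exact absurd ((hn a).succ_of_top hp h hπe heq) ha
          · obtain ⟨y, hy0, hy, hwy⟩ := (hn a).exists_pow_of_large hp h hπe hgt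
            exact absurd (hwy ▸ isU_pow hy0 hy (n + 1)) ha
      · exact Or.inr hex
  rcases key (e + 1) with hn | hex
  · left
    intro a
    refine (hn a).exists_pow_of_large hp h hπe ?_
    have : 1 ≤ p - 1 := by have := hp.two_le; omega
    nlinarith
  · exact Or.inr hex

theorem Rel.isU {u u' : C} {i : ℕ} (hr : Rel Γ p π u u') (hu' : IsU Γ v p π i u') :
    IsU Γ v p π i u := by
  obtain ⟨z, hz0, hz, rfl⟩ := hr
  exact hu'.mul_pow hz0 hz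

theorem Rel.lc_eq {u u' : C} {i : ℕ} (hp : p.Prime) (h : IsSH Γ v (p : C)) (hπe : π ^ e = (p : C))
    (hl1 : ¬ p ∣ e + i) (hl2 : (p - 1) * i < e) (hr : Rel Γ p π u u') (hu' : IsU Γ v p π i u') :
    lc Γ v p π i u = lc Γ v p π i u' := by
  obtain ⟨z, hz0, hz, rfl⟩ := hr
  exact lc_mul_pow hp h hπe hl1 hl2 hu' hz0 hz

/-- Kummer generators of the same character have the same class. -/
theorem IsKum.rel {β : ↥(stabilizer Γ π) → ZMod p} {α α' : C} (hα : IsKum π ζ β α)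
    (hα' : IsKum π ζ β α') : Rel Γ p π (α ^ p) (α' ^ p) := by
  refine ⟨α / α', div_ne_zero hα.1 hα'.1, hα.div_inL hα', ?_⟩
  rw [div_pow, mul_div_cancel₀ _ (pow_ne_zero _ hα'.1)]

theorem IsKum.rel_mul [NeZero p] (hζ : ζ ^ p = 1) {β β₁ β₂ : ↥(stabilizer Γ π) → ZMod p}
    {α α₁ α₂ : C} (hα : IsKum π ζ β α) (hα₁ : IsKum π ζ β₁ α₁) (hα₂ : IsKum π ζ β₂ α₂)
    (hβ : β = β₁ + β₂) : Rel Γ p π (α ^ p) (α₁ ^ p * α₂ ^ p) := by
  rw [← mul_pow]
  exact hα.rel (hβ ▸ hα₁.mul hζ hα₂)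

theorem IsKum.isU_zero (hζ : ζ ^ p = 1) {β : ↥(stabilizer Γ π) → ZMod p} {y : C}
    (hy : IsKum π ζ β y) (hy1 : v (y ^ p - 1) ≤ v (p : C)) : IsU Γ v p π 0 (y ^ p) :=
  ⟨pow_ne_zero _ hy.1, hy.pow_inL hζ, 1, one_ne_zero, fun s _ => smul_one s, by
    rwa [one_pow, mul_one, pow_zero, mul_one]⟩

theorem Rel.symm {u u' : C} (hr : Rel Γ p π u u') : Rel Γ p π u' u := by
  obtain ⟨z, hz0, hz, rfl⟩ := hr
  refine ⟨z⁻¹, inv_ne_zero hz0, FixBy.inv hz, ?_⟩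
  rw [inv_pow, mul_assoc, mul_inv_cancel₀ (pow_ne_zero _ hz0), mul_one]

theorem Rel.trans {u u' u'' : C} (hr : Rel Γ p π u u') (hr' : Rel Γ p π u' u'') : Rel Γ p π u u'' := by
  obtain ⟨z, hz0, hz, rfl⟩ := hr
  obtain ⟨z', hz0', hz', rfl⟩ := hr'
  refine ⟨z' * z, mul_ne_zero hz0' hz0, FixBy.mul hz' hz, ?_⟩
  rw [mul_pow, mul_assoc]

end General

/-! ## KP-A : the class `cl β ∈ L^×/L^{×p}` of a peu ramifiée character `β` of `N'` -/

/-- `β : N' → ZMod p` is peu ramifiée. -/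
def PeuC (p : ℕ) (v : Valuation C Γ₀) (π ζ : C) (β : ↥(stabilizer Γ π) → ZMod p) : Prop :=
  ∃ y : C, IsKum π ζ β y ∧ v (y ^ p - 1) ≤ v (p : C)

open scoped Classical in
/-- (a representative of) the Kummer class of `β`. -/
noncomputable def cl (p : ℕ) (v : Valuation C Γ₀) (π ζ : C) (β : ↥(stabilizer Γ π) → ZMod p) : C :=
  if h : PeuC p v π ζ β then h.choose ^ p else 1

section ClassA

variable {β β₁ β₂ β' : ↥(stabilizer Γ π) → ZMod p}

theorem PeuC.rel_cl (hβ : PeuC p v π ζ β) {y : C} (hy : IsKum π ζ β y) :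
    Rel Γ p π (y ^ p) (cl p v π ζ β) := by
  rw [cl, dif_pos hβ]
  exact hy.rel hβ.choose_spec.1

theorem PeuC.isU_cl (hζ : ζ ^ p = 1) (hβ : PeuC p v π ζ β) : IsU Γ v p π 0 (cl p v π ζ β) := by
  rw [cl, dif_pos hβ]
  exact IsKum.isU_zero hζ hβ.choose_spec.1 hβ.choose_spec.2

theorem PeuC.cl_add [NeZero p] (hζ : ζ ^ p = 1) (hβ₁ : PeuC p v π ζ β₁) (hβ₂ : PeuC p v π ζ β₂)
    (hβ : PeuC p v π ζ (β₁ + β₂)) :
    Rel Γ p π (cl p v π ζ (β₁ + β₂)) (cl p v π ζ β₁ * cl p v π ζ β₂) := by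
  rw [cl, cl, cl, dif_pos hβ, dif_pos hβ₁, dif_pos hβ₂]
  exact IsKum.rel_mul hζ hβ.choose_spec.1 hβ₁.choose_spec.1 hβ₂.choose_spec.1 rfl

/-- transport by a ring endomorphism `σ` of `C` normalising `N'` (`IsKum.map`). -/
theorem PeuC.cl_map [NeZero p] (hζ : ζ ^ p = 1) (hβ : PeuC p v π ζ β) (hβ' : PeuC p v π ζ β')
    (σ : C →+* C) (cσ : ↥(stabilizer Γ π) → ↥(stabilizer Γ π)) (hsurj : Function.Surjective cσ)
    (hσ : ∀ (x : ↥(stabilizer Γ π)) (z : C), σ ((x : Γ) • z) = (cσ x : Γ) • σ z)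
    {m : ℕ} (hm : σ ζ = ζ ^ m) (hc : ∀ x, β' (cσ x) = (m : ZMod p) * β x) :
    Rel Γ p π (σ (cl p v π ζ β)) (cl p v π ζ β') := by
  have h1 : σ (cl p v π ζ β) = (σ hβ.choose) ^ p := by
    rw [cl, dif_pos hβ, map_pow]
  rw [h1]
  exact hβ'.rel_cl (IsKum.map hζ hβ.choose_spec.1 σ cσ hsurj hσ hm hc)

/-- the case `σ = s ∈ Γ`, `cσ x = s x s⁻¹` (`conj_mem_stabilizer`). -/
theorem PeuC.cl_smul {e : ℕ} (hp : p.Prime) (h : IsSH Γ v (p : C)) (hπe : π ^ e = (p : C))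
    (hpe : ¬ p ∣ e) (hζ : ζ ^ p = 1) (hβ : PeuC p v π ζ β) (hβ' : PeuC p v π ζ β') (s : Γ)
    {m : ℕ} (hm : s • ζ = ζ ^ m)
    (hc : ∀ x y : ↥(stabilizer Γ π), (y : Γ) = s * x * s⁻¹ → β' y = (m : ZMod p) * β x) :
    Rel Γ p π (s • cl p v π ζ β) (cl p v π ζ β') := by
  haveI : NeZero p := ⟨hp.ne_zero⟩
  refine PeuC.cl_map hζ hβ hβ' (MulSemiringAction.toRingHom Γ C s)
    (fun x => ⟨s * x * s⁻¹, conj_mem_stabilizer hp h hπe hpe s x.2⟩) ?_ ?_ (m := m) hm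
    (fun x => hc x _ rfl)
  · intro y
    have hy := conj_mem_stabilizer hp h hπe hpe s⁻¹ y.2
    rw [inv_inv] at hy
    refine ⟨⟨s⁻¹ * y * s, hy⟩, ?_⟩
    apply Subtype.ext
    show s * (s⁻¹ * (y : Γ) * s) * s⁻¹ = y
    group
  · intro x z
    show s • ((x : Γ) • z) = (s * (x : Γ) * s⁻¹) • (s • z)
    rw [mul_smul, mul_smul, inv_smul_smul]

theorem PeuC.eq_zero [NeZero p] (hζ : IsPrimitiveRoot ζ p) (hζL : InL Γ π ζ) (hβ : PeuC p v π ζ β)
    {y : C} (hy : InL Γ π y) (hcl : cl p v π ζ β = y ^ p) : β = 0 := by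
  rw [cl, dif_pos hβ] at hcl
  exact IsKum.eq_zero_of_pow hζ hζL hβ.choose_spec.1 hy hcl

end ClassA

end Fermat.Agent.S56.Font
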