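import Fermat.Agent.S56.Font.KumOK
import Fermat.Agent.S56.Font.KT.H90
import Fermat.Agent.S56.Font.KT.KP
import Fermat.Agent.S56.Font.KT.ThetaB

/-!
# S56 / Font / KT / Good : the definition `IsGoodHom` (helper34's interface).   `kt_h`, `kt_b` are proved in `Flat/Irr/KTIface.lean` (helper58).
-/

set_option autoImplicit false

namespace Fermat.Agent.S56.Font

open MulAction

variable {C : Type} [Field C] {Γ₀ : Type} [LinearOrderedCommGroupWithZero Γ₀]
  {Γ : Type} [Group Γ] [MulSemiringAction Γ C] {k : Type} [Field k]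

/-- `b` is a homomorphism `N = Stab π → k`, trivial on `N ⊓ M`, and `Γ` acts on it through `χ` -/
structure IsGoodHom (π : C) (M : Subgroup Γ) (χ : Γ → k) (b : Γ → k) : Prop where
  add : ∀ s ∈ stabilizer Γ π, ∀ t ∈ stabilizer Γ π, b (s * t) = b s + b t
  zero : ∀ t ∈ stabilizer Γ π ⊓ M, b t = 0
  conj : ∀ s : Γ, ∀ t ∈ stabilizer Γ π, b (s * t * s⁻¹) = χ s * b t

end Fermat.Agent.S56.Font
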