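import Fermat.Agent.S56.Font.KT.KP

/-!
# S56 / Font / KT / KPB  (WP KP-B).   See the header of `KP.lean` (item KP-B) for the proofs.
-/

set_option autoImplicit false

namespace Fermat.Agent.S56.Font

open MulAction

variable {Γ : Type*} [Group Γ] {C : Type*} [Field C] [MulSemiringAction Γ C]
  {Γ₀ : Type*} [LinearOrderedCommGroupWithZero Γ₀] {v : Valuation C Γ₀} {p : ℕ} {π ζ : C}
  {k : Type*} [Field k]

/-! ## KP-B : the family `a ↦ cl (t (a * b ·))` -/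

/-- the character `x ↦ t (a * b x)`. -/
def fam (t : k →+ ZMod p) (b : ↥(stabilizer Γ π) → k) (a : k) : ↥(stabilizer Γ π) → ZMod p :=
  fun x => t (a * b x)

/-- the class attached to `(b, a)`. -/
noncomputable def kw (p : ℕ) (v : Valuation C Γ₀) (π ζ : C) (t : k →+ ZMod p)
    (b : ↥(stabilizer Γ π) → k) (a : k) : C := cl p v π ζ (fam t b a)

section FamB

variable {t : k →+ ZMod p} {b b' : ↥(stabilizer Γ π) → k} {e i : ℕ}

theorem Peu.peuC (hb : Peu p v π ζ b) (t : k →+ ZMod p) (a : k) : PeuC p v π ζ (fam t b a) :=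
  hb (t.comp (AddMonoidHom.mulLeft a))

theorem exists_t (hp : p.Prime) (k : Type*) [Field k] [CharP k p] :
    ∃ t : k →+ ZMod p, ∀ z : k, (∀ a, t (a * z) = 0) → z = 0 := by
  haveI : Fact p.Prime := ⟨hp⟩
  letI := ZMod.algebra k p
  have h1 : ¬ ∀ φ : Module.Dual (ZMod p) k, φ (1 : k) = 0 := by
    rw [Module.forall_dual_apply_eq_zero_iff]
    exact one_ne_zero
  push Not at h1
  obtain ⟨φ, hφ⟩ := h1
  refine ⟨φ.toAddMonoidHom, fun z hz => ?_⟩
  by_contra hz0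
  apply hφ
  have := hz z⁻¹
  rwa [inv_mul_cancel₀ hz0] at this

theorem exists_omega (hp : p.Prime) (Γ : Type*) [Group Γ] [MulSemiringAction Γ C]
    (hζ : IsPrimitiveRoot ζ p) : ∃ ω : Γ → ZMod p, ∀ s : Γ, s • ζ = ζ ^ (ω s).val := by
  haveI : NeZero p := ⟨hp.ne_zero⟩
  have key : ∀ s : Γ, ∃ w : ZMod p, s • ζ = ζ ^ w.val := by
    intro s
    have h1 : (s • ζ) ^ p = 1 := by rw [← smul_pow', hζ.pow_eq_one, smul_one]
    obtain ⟨j, hj, hjs⟩ := hζ.eq_pow_of_pow_eq_one h1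
    refine ⟨(j : ZMod p), ?_⟩
    rw [ZMod.val_natCast_of_lt hj, hjs]
  choose ω hω using key
  exact ⟨ω, hω⟩

theorem Peu.isU_kw (hζ : ζ ^ p = 1) (hb : Peu p v π ζ b) (a : k) :
    IsU Γ v p π 0 (kw p v π ζ t b a) :=
  (hb.peuC t a).isU_cl hζ

/-- all classes are `p`-th powers ⟹ `b = 0`. -/
theorem Peu.eq_zero_of_pow [NeZero p] (hζ : IsPrimitiveRoot ζ p) (hζL : InL Γ π ζ)
    (ht : ∀ z : k, (∀ a, t (a * z) = 0) → z = 0) (hb : Peu p v π ζ b)
    (hpow : ∀ a, ∃ y : C, y ≠ 0 ∧ InL Γ π y ∧ kw p v π ζ t b a = y ^ p) : b = 0 := by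
  funext x
  apply ht
  intro a
  obtain ⟨y, -, hy, hk⟩ := hpow a
  exact congrFun ((hb.peuC t a).eq_zero hζ hζL hy hk) x

/-- `v π ≤ 1`. -/
theorem val_pi_le_one_kpb (h : IsSH Γ v (p : C)) (hπe : π ^ e = (p : C)) : v π ≤ 1 := by
  by_contra hlt
  push Not at hlt
  have h1 : 1 ≤ v π ^ e := one_le_pow₀ hlt.le
  rw [← map_pow, hπe] at h1
  exact absurd h.lt_one (not_lt.2 h1)

variable (hp : p.Prime) (h : IsSH Γ v (p : C)) (hπe : π ^ e = (p : C)) (hl1 : ¬ p ∣ e + i)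
  (hl2 : (p - 1) * i < e) (hζ : ζ ^ p = 1)

include hp h hπe hl1 hl2 hζ

theorem lc_kw_add_right (hb : Peu p v π ζ b) (hU : ∀ a, IsU Γ v p π i (kw p v π ζ t b a)) (a a' : k) :
    lc Γ v p π i (kw p v π ζ t b (a + a')) =
      lc Γ v p π i (kw p v π ζ t b a) + lc Γ v p π i (kw p v π ζ t b a') := by
  haveI : NeZero p := ⟨hp.ne_zero⟩
  have hfam : fam t b (a + a') = fam t b a + fam t b a' := by
    funext x
    simp only [fam, Pi.add_apply, add_mul, map_add]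
  have hrel : Rel Γ p π (kw p v π ζ t b (a + a')) (kw p v π ζ t b a * kw p v π ζ t b a') := by
    unfold kw
    rw [hfam]
    exact PeuC.cl_add hζ (hb.peuC t a) (hb.peuC t a') (hfam ▸ hb.peuC t (a + a'))
  rw [hrel.lc_eq hp h hπe hl1 hl2 ((hU a).mul (val_pi_le_one_kpb h hπe) h.lt_one.le (hU a')),
    lc_mul hp h hπe hl1 hl2 (hU a) (hU a')]

theorem lc_kw_add_left (hb : Peu p v π ζ b) (hb' : Peu p v π ζ b') (hbb' : Peu p v π ζ (b + b'))
    (a : k) (hU : IsU Γ v p π i (kw p v π ζ t b a)) (hU' : IsU Γ v p π i (kw p v π ζ t b' a)) :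
    lc Γ v p π i (kw p v π ζ t (b + b') a) =
      lc Γ v p π i (kw p v π ζ t b a) + lc Γ v p π i (kw p v π ζ t b' a) := by
  haveI : NeZero p := ⟨hp.ne_zero⟩
  have hfam : fam t (b + b') a = fam t b a + fam t b' a := by
    funext x
    simp only [fam, Pi.add_apply, mul_add, map_add]
  have hrel : Rel Γ p π (kw p v π ζ t (b + b') a) (kw p v π ζ t b a * kw p v π ζ t b' a) := by
    unfold kw
    rw [hfam]
    exact PeuC.cl_add hζ (hb.peuC t a) (hb'.peuC t a) (hfam ▸ hbb'.peuC t a)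
  rw [hrel.lc_eq hp h hπe hl1 hl2 (hU.mul (val_pi_le_one_kpb h hπe) h.lt_one.le hU'),
    lc_mul hp h hπe hl1 hl2 hU hU']

omit hp h hπe hl1 hl2 hζ in
theorem kw_smul (c : k) (b : ↥(stabilizer Γ π) → k) (a : k) :
    kw p v π ζ t (c • b) a = kw p v π ζ t b (c * a) := by
  have hfam : fam t (c • b) a = fam t b (c * a) := by
    funext x
    simp only [fam, Pi.smul_apply, smul_eq_mul]
    congr 1
    ring
  unfold kw
  rw [hfam]

/-- **(E1)** -/
theorem lc_kw_smul [CharP k p] (hpe : ¬ p ∣ e) (hb : Peu p v π ζ b)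
    (hU : ∀ a, IsU Γ v p π i (kw p v π ζ t b a)) (s : Γ) {m : ℕ} (hm : s • ζ = ζ ^ m) {c : k}
    (hc0 : c ≠ 0) (hc : ∀ x y : ↥(stabilizer Γ π), (y : Γ) = s * x * s⁻¹ → b y = c * b x) (a : k) :
    lc Γ v p π i (kw p v π ζ t b ((m : k) * c⁻¹ * a)) =
      rs v (tht π s) ^ i * lc Γ v p π i (kw p v π ζ t b a) := by
  have hrel : Rel Γ p π (s • kw p v π ζ t b a) (kw p v π ζ t b ((m : k) * c⁻¹ * a)) := by
    refine PeuC.cl_smul hp h hπe hpe hζ (hb.peuC t a) (hb.peuC t _) s hm fun x y hxy => ?_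
    simp only [fam]
    rw [hc x y hxy]
    have e1 : (m : k) * c⁻¹ * a * (c * b x) = m • (a * b x) := by
      rw [nsmul_eq_mul]
      field_simp
    rw [e1, map_nsmul, nsmul_eq_mul]
  rw [hrel.symm.lc_eq hp h hπe hl1 hl2 (isU_smul hp h hπe hpe (hU a) s),
    lc_smul hp h hπe hpe hl1 hl2 (hU a) s]

/-- **(Frobenius)** -/
theorem lc_kw_frob [CharP k p] (hb : Peu p v π ζ b) (hU : ∀ a, IsU Γ v p π i (kw p v π ζ t b a))
    (Φ : C →+* C) (hΦv : ∀ z, v (Φ z) = v z) (hΦπ : Φ π = π) {q : ℕ}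
    (hΦq : ∀ z, v z ≤ 1 → v (Φ z - z ^ q) < 1)
    (cΦ : ↥(stabilizer Γ π) → ↥(stabilizer Γ π)) (hsurj : Function.Surjective cΦ)
    (hΦc : ∀ (x : ↥(stabilizer Γ π)) (z : C), Φ ((x : Γ) • z) = (cΦ x : Γ) • Φ z)
    (hbΦ : ∀ x, b (cΦ x) = b x) {m : ℕ} (hm : Φ ζ = ζ ^ m) (a : k) :
    lc Γ v p π i (kw p v π ζ t b a) ^ q = (m : Kap v) * lc Γ v p π i (kw p v π ζ t b a) := by
  haveI : NeZero p := ⟨hp.ne_zero⟩
  have hΦL : ∀ z, InL Γ π z → InL Γ π (Φ z) := by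
    intro z hz y hy
    obtain ⟨x, hx⟩ := hsurj ⟨y, hy⟩
    have h1 := hΦc x z
    rw [hx, hz x.1 x.2] at h1
    exact h1.symm
  have hrel : Rel Γ p π (Φ (kw p v π ζ t b a)) (kw p v π ζ t b ((m : k) * a)) := by
    refine PeuC.cl_map hζ (hb.peuC t a) (hb.peuC t _) Φ cΦ hsurj hΦc hm fun x => ?_
    simp only [fam]
    rw [hbΦ x]
    have e1 : (m : k) * a * b x = m • (a * b x) := by
      rw [nsmul_eq_mul, mul_assoc]
    rw [e1, map_nsmul, nsmul_eq_mul]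
  have hadd := lc_kw_add_right (t := t) hp h hπe hl1 hl2 hζ hb hU
  have h0 : lc Γ v p π i (kw p v π ζ t b 0) = 0 := by
    have := hadd 0 0
    rw [add_zero] at this
    exact left_eq_add.mp this
  have hnat : ∀ n : ℕ, lc Γ v p π i (kw p v π ζ t b ((n : k) * a)) =
      (n : Kap v) * lc Γ v p π i (kw p v π ζ t b a) := by
    intro n
    induction n with
    | zero => rw [Nat.cast_zero, Nat.cast_zero, zero_mul, zero_mul, h0]
    | succ n ih => rw [Nat.cast_succ, Nat.cast_succ, add_mul, add_mul, one_mul, one_mul, hadd, ih]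
  rw [← lc_frob hp h hπe hl1 hl2 (hU a) Φ hΦv hΦL hΦπ hΦq,
    hrel.lc_eq hp h hπe hl1 hl2 (hU _), hnat]

end FamB

end Fermat.Agent.S56.Font
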