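import Fermat.Agent.S56.Font.KT.Defs

/-!
# S56 / Font / KT / LevBasic : formal properties of `IsU`, `IsLev`            (WP KT-LEVB)

Notation: `γ = v π`, `γ^e = v p < 1`, `c_i = v p * γ^i`.  Everything is the ultrametric inequality.  `hπ := isTot_of_pow_eq h hπe`.
* `IsU.exists_isLev` : `y` from `IsU`; `z := (u y^p - 1)/(p π^i)` is integral; `IsSH.res` gives `x` fixed with `v (z - x) < 1` (so `v x ≤ 1`);
  `u y^p - (1 + p x π^i) = p π^i (z - x)`.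
* `IsLev.isU` : `v (u y^p - 1) ≤ max (< c_i) (v (p x π^i) ≤ c_i)`.
* `IsLev.isU_succ` : `v x < 1` ⟹ `v (u y^p - 1) < c_i = γ^(e+i)`; `u y^p - 1 ∈ L`, so it is `0` or has valuation `γ^m`, `m : ℤ`
  (`IsTot.exists_val_eq_zpow`), `m > e + i`, so `≤ γ^(e+i+1)`.
* `IsU.isLev_zero` : `v (u y^p - 1) ≤ c_{i+1} < c_i`.
* `IsLev.mul` : `(1 + p x π^i + r)(1 + p x' π^i + r') = 1 + p (x+x') π^i + [p² x x' π^(2i) + r (..) + r' (..)]`, `v (p² ..) ≤ v p * c_i < c_i`;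
  multiplier `y y'`.
* `IsLev.map` : apply `σ` (a ring hom fixes `(p : C)`): multiplier `σ y`.
* `IsLev.congr`, `IsLev.mul_pow` (multiplier `y / z`), `IsU.mono`, `IsU.mul`, `IsU.mul_pow`, `isU_pow` (multiplier `y⁻¹`): trivial.
-/

set_option autoImplicit false

namespace Fermat.Agent.S56.Font

open MulAction

variable {Γ : Type*} [Group Γ] {C : Type*} [Field C] [MulSemiringAction Γ C]
  {Γ₀ : Type*} [LinearOrderedCommGroupWithZero Γ₀] {v : Valuation C Γ₀} {p : ℕ} {π : C} {e i : ℕ}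
  {u u' x x' : C}

/-- `c_i > 0` -/
lemma lev_c_pos (hπ0 : π ≠ 0) (hp0 : (p : C) ≠ 0) (i : ℕ) : 0 < v (p : C) * v π ^ i :=
  mul_pos (zero_lt_iff.2 ((v.ne_zero_iff).2 hp0)) (pow_pos (zero_lt_iff.2 ((v.ne_zero_iff).2 hπ0)) i)

theorem IsU.exists_isLev (h : IsSH Γ v (p : C)) (hπe : π ^ e = (p : C)) (hu : IsU Γ v p π i u) :
    ∃ x : C, Fix0 Γ x ∧ IsLev Γ v p π i u x := by
  obtain ⟨hu0, huL, y, hy0, hyL, hy⟩ := hu
  have hπ := isTot_of_pow_eq h hπe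
  have hπ0 : π ≠ 0 := ne_zero_of_pow' h hπ.pow
  have hp0 : (p : C) ≠ 0 := h.ne_zero
  have hc := lev_c_pos (v := v) hπ0 hp0 i
  have hz : v ((u * y ^ p - 1) / ((p : C) * π ^ i)) ≤ 1 := by
    rw [map_div₀, map_mul, map_pow]
    exact (div_le_one₀ hc).2 hy
  obtain ⟨x, hx, hzx⟩ := h.res _ hz
  have hx1 : v x ≤ 1 := by
    have h1 : x = (u * y ^ p - 1) / ((p : C) * π ^ i) - ((u * y ^ p - 1) / ((p : C) * π ^ i) - x) := by
      ring
    rw [h1]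
    exact (v.map_sub _ _).trans (max_le hz hzx.le)
  refine ⟨x, hx, hu0, huL, hx1, y, hy0, hyL, ?_⟩
  have h2 : u * y ^ p - (1 + p * x * π ^ i) =
      ((p : C) * π ^ i) * ((u * y ^ p - 1) / ((p : C) * π ^ i) - x) := by
    have : (p : C) * π ^ i ≠ 0 := mul_ne_zero hp0 (pow_ne_zero _ hπ0)
    field_simp
    ring
  rw [h2, map_mul, map_mul, map_pow]
  exact mul_lt_of_lt_one_right hc hzx

theorem IsLev.isU (hx : IsLev Γ v p π i u x) : IsU Γ v p π i u := by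
  obtain ⟨hu0, huL, hx1, y, hy0, hyL, hy⟩ := hx
  refine ⟨hu0, huL, y, hy0, hyL, ?_⟩
  have h1 : u * y ^ p - 1 = (u * y ^ p - (1 + p * x * π ^ i)) + p * x * π ^ i := by ring
  rw [h1]
  refine (v.map_add _ _).trans (max_le hy.le ?_)
  rw [map_mul, map_mul, map_pow]
  calc v (p : C) * v x * v π ^ i ≤ v (p : C) * 1 * v π ^ i := by gcongr
    _ = v (p : C) * v π ^ i := by rw [mul_one]

theorem IsLev.isU_succ (h : IsSH Γ v (p : C)) (hπe : π ^ e = (p : C)) (hx : IsLev Γ v p π i u x)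
    (hx1 : v x < 1) : IsU Γ v p π (i + 1) u := by
  obtain ⟨hu0, huL, -, y, hy0, hyL, hy⟩ := hx
  have hπ := isTot_of_pow_eq h hπe
  have hπ0 : π ≠ 0 := ne_zero_of_pow' h hπ.pow
  have hp0 : (p : C) ≠ 0 := h.ne_zero
  have hc := lev_c_pos (v := v) hπ0 hp0 i
  refine ⟨hu0, huL, y, hy0, hyL, ?_⟩
  have hlt : v (u * y ^ p - 1) < v π ^ (e + i) := by
    rw [pow_add, hπ.pow]
    have h1 : u * y ^ p - 1 = (u * y ^ p - (1 + p * x * π ^ i)) + p * x * π ^ i := by ring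
    rw [h1]
    refine (v.map_add _ _).trans_lt (max_lt hy ?_)
    have h2 : v ((p : C) * x * π ^ i) = (v (p : C) * v π ^ i) * v x := by
      rw [map_mul, map_mul, map_pow, mul_right_comm]
    rw [h2]
    exact mul_lt_of_lt_one_right hc hx1
  have hfix : FixBy (stabilizer Γ π) (u * y ^ p - 1) :=
    FixBy.sub (FixBy.mul huL (FixBy.pow hyL p)) (Fix0.one.fixBy _)
  have := hπ.val_le_pow_succ h hfix hlt
  rwa [add_assoc, pow_add, hπ.pow] at this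

theorem IsU.isLev_zero (h : IsSH Γ v (p : C)) (hπe : π ^ e = (p : C)) (hu : IsU Γ v p π (i + 1) u) :
    IsLev Γ v p π i u 0 := by
  obtain ⟨hu0, huL, y, hy0, hyL, hy⟩ := hu
  have hπ := isTot_of_pow_eq h hπe
  have hπ0 : π ≠ 0 := ne_zero_of_pow' h hπ.pow
  have hp0 : (p : C) ≠ 0 := h.ne_zero
  have hc := lev_c_pos (v := v) hπ0 hp0 i
  have hγ1 : v π < 1 := val_lt_one_of_pow h hπ.pow
  refine ⟨hu0, huL, by rw [map_zero]; exact zero_le, y, hy0, hyL, ?_⟩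
  have h1 : u * y ^ p - (1 + p * 0 * π ^ i) = u * y ^ p - 1 := by ring
  rw [h1]
  refine hy.trans_lt ?_
  rw [pow_succ, ← mul_assoc]
  exact mul_lt_of_lt_one_right hc hγ1

theorem IsLev.mul (h : IsSH Γ v (p : C)) (hπe : π ^ e = (p : C)) (hx : IsLev Γ v p π i u x)
    (hx' : IsLev Γ v p π i u' x') : IsLev Γ v p π i (u * u') (x + x') := by
  obtain ⟨hu0, huL, hx1, y, hy0, hyL, hy⟩ := hx
  obtain ⟨hu0', huL', hx1', y', hy0', hyL', hy'⟩ := hx'
  have hπ := isTot_of_pow_eq h hπe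
  have hπ0 : π ≠ 0 := ne_zero_of_pow' h hπ.pow
  have hp0 : (p : C) ≠ 0 := h.ne_zero
  have hc := lev_c_pos (v := v) hπ0 hp0 i
  have hγ1 : v π < 1 := val_lt_one_of_pow h hπ.pow
  have hc1 : v (p : C) * v π ^ i < 1 :=
    lt_of_le_of_lt (mul_le_of_le_one_right zero_le (pow_le_one₀ zero_le hγ1.le)) h.lt_one
  have ha : ∀ t : C, v t ≤ 1 → v ((p : C) * t * π ^ i) ≤ v (p : C) * v π ^ i := by
    intro t ht
    rw [map_mul, map_mul, map_pow]
    calc v (p : C) * v t * v π ^ i ≤ v (p : C) * 1 * v π ^ i := by gcongr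
      _ = v (p : C) * v π ^ i := by rw [mul_one]
  refine ⟨mul_ne_zero hu0 hu0', FixBy.mul huL huL', (v.map_add _ _).trans (max_le hx1 hx1'),
    y * y', mul_ne_zero hy0 hy0', FixBy.mul hyL hyL', ?_⟩
  have h1a : v (1 + (p : C) * x * π ^ i) ≤ 1 :=
    (v.map_add _ _).trans (max_le (by rw [map_one]) ((ha x hx1).trans hc1.le))
  have hA' : v (u' * y' ^ p) ≤ 1 := by
    have h2 : u' * y' ^ p = (u' * y' ^ p - (1 + p * x' * π ^ i)) + (1 + p * x' * π ^ i) := by ring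
    rw [h2]
    refine (v.map_add _ _).trans (max_le (hy'.le.trans hc1.le) ?_)
    exact (v.map_add _ _).trans (max_le (by rw [map_one]) ((ha x' hx1').trans hc1.le))
  have h3 : u * u' * (y * y') ^ p - (1 + p * (x + x') * π ^ i) =
      ((p : C) * x * π ^ i) * ((p : C) * x' * π ^ i) +
        (u * y ^ p - (1 + p * x * π ^ i)) * (u' * y' ^ p) +
        (u' * y' ^ p - (1 + p * x' * π ^ i)) * (1 + p * x * π ^ i) := by
    ring
  rw [h3]
  refine (v.map_add _ _).trans_lt (max_lt ((v.map_add _ _).trans_lt (max_lt ?_ ?_)) ?_)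
  · rw [map_mul]
    calc v ((p : C) * x * π ^ i) * v ((p : C) * x' * π ^ i)
        ≤ (v (p : C) * v π ^ i) * (v (p : C) * v π ^ i) := mul_le_mul' (ha x hx1) (ha x' hx1')
      _ < v (p : C) * v π ^ i := mul_lt_of_lt_one_right hc hc1
  · rw [map_mul]
    exact lt_of_le_of_lt (mul_le_of_le_one_right zero_le hA') hy
  · rw [map_mul]
    exact lt_of_le_of_lt (mul_le_of_le_one_right zero_le h1a) hy'

theorem IsLev.congr (hx : IsLev Γ v p π i u x) (hx' : v x' ≤ 1) (hxx' : v (x - x') < 1)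
    (hπ0 : π ≠ 0) (hp0 : (p : C) ≠ 0) : IsLev Γ v p π i u x' := by
  obtain ⟨hu0, huL, hx1, y, hy0, hyL, hy⟩ := hx
  have hc := lev_c_pos (v := v) hπ0 hp0 i
  refine ⟨hu0, huL, hx', y, hy0, hyL, ?_⟩
  have h1 : u * y ^ p - (1 + p * x' * π ^ i) =
      (u * y ^ p - (1 + p * x * π ^ i)) + p * (x - x') * π ^ i := by ring
  rw [h1]
  refine (v.map_add _ _).trans_lt (max_lt hy ?_)
  have h2 : v ((p : C) * (x - x') * π ^ i) = (v (p : C) * v π ^ i) * v (x - x') := by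
    rw [map_mul, map_mul, map_pow, mul_right_comm]
  rw [h2]
  exact mul_lt_of_lt_one_right hc hxx'

theorem IsLev.mul_pow (hx : IsLev Γ v p π i u x) {z : C} (hz0 : z ≠ 0) (hz : InL Γ π z) :
    IsLev Γ v p π i (u * z ^ p) x := by
  obtain ⟨hu0, huL, hx1, y, hy0, hyL, hy⟩ := hx
  refine ⟨mul_ne_zero hu0 (pow_ne_zero _ hz0), FixBy.mul huL (FixBy.pow hz p), hx1, y * z⁻¹,
    mul_ne_zero hy0 (inv_ne_zero hz0), FixBy.mul hyL (FixBy.inv hz), ?_⟩
  have h1 : u * z ^ p * (y * z⁻¹) ^ p = u * y ^ p := by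
    rw [_root_.mul_pow, inv_pow]
    field_simp
  rw [h1]
  exact hy

/-- transport by a valuation preserving ring endomorphism `σ` of `C` with `σ L ⊆ L`, `σ π = ϑ π`. -/
theorem IsLev.map (hx : IsLev Γ v p π i u x) (σ : C →+* C) (hσv : ∀ z, v (σ z) = v z)
    (hσL : ∀ z, InL Γ π z → InL Γ π (σ z)) {ϑ : C} (hϑ : σ π = ϑ * π) (hπ0 : π ≠ 0) :
    IsLev Γ v p π i (σ u) (ϑ ^ i * σ x) := by
  obtain ⟨hu0, huL, hx1, y, hy0, hyL, hy⟩ := hx
  have hϑ1 : v ϑ = 1 := by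
    have h1 := hσv π
    rw [hϑ, map_mul] at h1
    exact (mul_eq_right₀ ((v.ne_zero_iff).2 hπ0)).1 h1
  refine ⟨(map_ne_zero σ).2 hu0, hσL u huL, ?_, σ y, (map_ne_zero σ).2 hy0, hσL y hyL, ?_⟩
  · rw [map_mul, map_pow, hϑ1, one_pow, one_mul, hσv]
    exact hx1
  · have h1 : σ u * σ y ^ p - (1 + p * (ϑ ^ i * σ x) * π ^ i) =
        σ (u * y ^ p - (1 + p * x * π ^ i)) := by
      simp only [map_sub, map_mul, map_pow, map_add, map_one, map_natCast, hϑ]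
      ring
    rw [h1, hσv]
    exact hy

theorem IsU.mono (hπ1 : v π ≤ 1) (hu : IsU Γ v p π (i + 1) u) : IsU Γ v p π i u := by
  obtain ⟨hu0, huL, y, hy0, hyL, hy⟩ := hu
  refine ⟨hu0, huL, y, hy0, hyL, hy.trans ?_⟩
  rw [pow_succ, ← mul_assoc]
  exact mul_le_of_le_one_right zero_le hπ1

theorem IsU.mul (hπ1 : v π ≤ 1) (hp1 : v (p : C) ≤ 1) (hu : IsU Γ v p π i u) (hu' : IsU Γ v p π i u') :
    IsU Γ v p π i (u * u') := by
  obtain ⟨hu0, huL, y, hy0, hyL, hy⟩ := hu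
  obtain ⟨hu0', huL', y', hy0', hyL', hy'⟩ := hu'
  have hc1 : v (p : C) * v π ^ i ≤ 1 := mul_le_one' hp1 (pow_le_one₀ zero_le hπ1)
  refine ⟨mul_ne_zero hu0 hu0', FixBy.mul huL huL', y * y', mul_ne_zero hy0 hy0',
    FixBy.mul hyL hyL', ?_⟩
  have hA' : v (u' * y' ^ p) ≤ 1 := by
    have h2 : u' * y' ^ p = (u' * y' ^ p - 1) + 1 := by ring
    rw [h2]
    exact (v.map_add _ _).trans (max_le (hy'.trans hc1) (by rw [map_one]))
  have h3 : u * u' * (y * y') ^ p - 1 = (u * y ^ p - 1) * (u' * y' ^ p) + (u' * y' ^ p - 1) := by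
    ring
  rw [h3]
  refine (v.map_add _ _).trans (max_le ?_ hy')
  rw [map_mul]
  exact (mul_le_of_le_one_right zero_le hA').trans hy

theorem IsU.mul_pow (hu : IsU Γ v p π i u) {z : C} (hz0 : z ≠ 0) (hz : InL Γ π z) :
    IsU Γ v p π i (u * z ^ p) := by
  obtain ⟨hu0, huL, y, hy0, hyL, hy⟩ := hu
  refine ⟨mul_ne_zero hu0 (pow_ne_zero _ hz0), FixBy.mul huL (FixBy.pow hz p), y * z⁻¹,
    mul_ne_zero hy0 (inv_ne_zero hz0), FixBy.mul hyL (FixBy.inv hz), ?_⟩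
  have h1 : u * z ^ p * (y * z⁻¹) ^ p = u * y ^ p := by
    rw [_root_.mul_pow, inv_pow]
    field_simp
  rw [h1]
  exact hy

theorem isU_pow {z : C} (hz0 : z ≠ 0) (hz : InL Γ π z) (i : ℕ) : IsU Γ v p π i (z ^ p) := by
  refine ⟨pow_ne_zero _ hz0, FixBy.pow hz p, z⁻¹, inv_ne_zero hz0, FixBy.inv hz, ?_⟩
  have h1 : z ^ p * z⁻¹ ^ p - 1 = 0 := by
    rw [← mul_pow, mul_inv_cancel₀ hz0, one_pow, sub_self]
  rw [h1, map_zero]
  exact zero_le

end Fermat.Agent.S56.Font
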