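import Fermat.Agent.S56.Font.KT.Defs

/-!
# S56 / Font / KT / LevUniq : the leading coefficient at a live level is well defined          (WP KT-LEVU)

LIVE level `i`: `p ∤ e + i` and `(p-1) i < e`.
`IsLev.unique` : `IsLev i u x`, `IsLev i u x'` ⟹ `v (x - x') < 1`.
PROOF. Multipliers `y, y'`; `A := u y^p = 1 + p x π^i + r`, `A' := u y'^p = 1 + p x' π^i + r'`, `v r, v r' < c_i := v p * γ^i < 1`; `v A' = 1`.
`Y := y / y' ∈ L`, `Y^p - 1 = (A - A')/A'`, `A - A' = p (x - x') π^i + (r - r')`.  If `v (x - x') = 1` (it is `≤ 1`) then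
`v (Y^p - 1) = c_i = γ^(e+i)`: contradiction with `not_pow_of_level` (`l = e + i`, `(p-1)(e+i) < p e ⟸ (p-1) i < e`).
-/

set_option autoImplicit false

namespace Fermat.Agent.S56.Font

open MulAction

variable {Γ : Type*} [Group Γ] {C : Type*} [Field C] [MulSemiringAction Γ C]
  {Γ₀ : Type*} [LinearOrderedCommGroupWithZero Γ₀] {v : Valuation C Γ₀} {p : ℕ} {π : C} {e i : ℕ}
  {u x x' : C}

theorem IsLev.unique (hp : p.Prime) (h : IsSH Γ v (p : C)) (hπe : π ^ e = (p : C))
    (hl1 : ¬ p ∣ e + i) (hl2 : (p - 1) * i < e)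
    (hx : IsLev Γ v p π i u x) (hx' : IsLev Γ v p π i u x') : v (x - x') < 1 := by
  have hπ := isTot_of_pow_eq h hπe
  obtain ⟨hu0, -, hx1, y, hy0, hyL, hy⟩ := hx
  obtain ⟨-, -, hx1', y', hy0', hyL', hy'⟩ := hx'
  have hγ1 : v π < 1 := val_lt_one_of_pow h hπ.pow
  have hvp : v (p : C) < 1 := h.lt_one
  have hc1 : v (p : C) * v π ^ i < 1 :=
    lt_of_le_of_lt (mul_le_of_le_one_right zero_le (pow_le_one' hγ1.le i)) hvp
  have hcpow : v (p : C) * v π ^ i = v π ^ (e + i) := by rw [pow_add, hπ.pow]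
  by_contra hcon
  have hxx : v (x - x') = 1 :=
    le_antisymm ((v.map_sub x x').trans (max_le hx1 hx1')) (not_lt.1 hcon)
  -- `v A' = 1`
  have hA'1 : v (u * y' ^ p - 1) < 1 := by
    have e1 : u * y' ^ p - 1 = (u * y' ^ p - (1 + p * x' * π ^ i)) + p * x' * π ^ i := by ring
    rw [e1]
    refine lt_of_le_of_lt (v.map_add _ _) (max_lt (hy'.trans hc1) ?_)
    rw [map_mul, map_mul, map_pow]
    refine lt_of_le_of_lt ?_ hc1
    exact mul_le_mul_left (mul_le_of_le_one_right zero_le hx1') _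
  have hA' : v (u * y' ^ p) = 1 := by
    have e1 : u * y' ^ p = (u * y' ^ p - 1) + 1 := by ring
    rw [e1, Valuation.map_add_eq_of_lt_right v (by rwa [map_one]), map_one]
  have hAA : v (u * y ^ p - u * y' ^ p) = v (p : C) * v π ^ i := by
    have e1 : u * y ^ p - u * y' ^ p = ((u * y ^ p - (1 + p * x * π ^ i))
        - (u * y' ^ p - (1 + p * x' * π ^ i))) + p * (x - x') * π ^ i := by ring
    have e2 : v ((p : C) * (x - x') * π ^ i) = v (p : C) * v π ^ i := by
      rw [map_mul, map_mul, map_pow, hxx, mul_one]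
    rw [e1, Valuation.map_add_eq_of_lt_right v, e2]
    rw [e2]
    exact lt_of_le_of_lt (v.map_sub _ _) (max_lt hy hy')
  have hY : v ((y / y') ^ p - 1) = v π ^ (e + i) := by
    have e1 : (y / y') ^ p - 1 = (u * y ^ p - u * y' ^ p) / (u * y' ^ p) := by
      rw [div_pow]
      field_simp
    rw [e1, map_div₀, hAA, hA', div_one, hcpow]
  have he0 : 0 < e := by
    rcases Nat.eq_zero_or_pos e with rfl | he
    · exact absurd hl2 (Nat.not_lt_zero _)
    · exact he
  have hYL : FixBy (stabilizer Γ π) (y / y') := by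
    rw [div_eq_mul_inv]
    exact hyL.mul hyL'.inv
  refine not_pow_of_level hp h hπ hYL hY (by omega) hl1 ?_
  obtain ⟨q, rfl⟩ : ∃ q, p = q + 1 := ⟨p - 1, by have := hp.pos; omega⟩
  simp only [Nat.add_sub_cancel] at hl2 ⊢
  nlinarith

end Fermat.Agent.S56.Font
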