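import Fermat.Agent.S56.Font.KT.Defs

/-!
# S56 / Font / KT / Theta : roots of unity of order prime to `p`, the tame character `tht`, and `ω = tht^(e/(p-1))`      (WP KT-THETA-A; part B is in ThetaB.lean = WP KT-THETA-B)

`(Γ, C, v, p)` strictly henselian.
PART A
* `val_smul_sub_lt_one` : `v x ≤ 1` ⟹ `v (s • x - x) < 1`.   [`IsSH.res`: `y` fixed, `v (x - y) < 1`; `s x - x = s (x - y) - (x - y)`, `IsSH.inv`.]
* `eq_one_of_pow_eq_one_of_near` : `ξ^m = 1`, `p ∤ m`, `v (ξ - 1) < 1` ⟹ `ξ = 1`.   [if `ξ ≠ 1`: `0 = ∑_{k<m} ξ^k` (`mul_geom_sum`/`geom_sum_eq`), each `ξ^k ≡ 1`, so `v (m : C) < 1`;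
   but `p ∤ m` gives `a m + b p = 1` in `ℤ`, `v (integer) ≤ 1`, `v p < 1` ⟹ `v m = 1`.  See the proof of `exists_incongruent` in `Root/Res.lean`.]
* `fix0_of_pow_eq_one` : `ξ^m = 1`, `p ∤ m` ⟹ `ξ ∈ K₀`.   [`ξ ≠ 0`, `v ξ = 1`; `(s ξ / ξ)^m = 1` and `v (s ξ / ξ - 1) = v (s ξ - ξ) < 1`.]
* `inL_root_of_unit` (HENSEL-M) : `N` any subgroup, `u` fixed by `N`, `v u = 1`, `p ∤ m`, `y^m = u` ⟹ `y` is fixed by `N`.   [same argument with `s y / y`.]
* `tht`: `π^e = p`, `p ∤ e`: `tht_pow`, `smul_pi`, `fix0_tht`, `tht_mul` (`(s t) π = s (tht t * π) = tht t * tht s * π`), `val_tht`.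
* `stabilizer_normal` : `x ∈ Stab π` ⟹ `s x s⁻¹ ∈ Stab π`.   [`s⁻¹ π = tht s⁻¹ * π`, `x` fixes it, ...]
* `dvd_of_tht_pow` : `(∀ s, v (tht π s ^ m - 1) < 1)` ⟹ `e ∣ m`.   [`tht s ^ m` is an `e`-th root of unity near `1`: `= 1`.  `s ↦ tht s` takes exactly `e` values (the orbit of `π` has
   `e = index` elements: `IsTot.card_orbF`, `isTot_of_pow_eq`), all in `nthRootsFinset e 1` which has `≤ e` elements: so EVERY `e`-th root of unity is a `tht s`; take a primitive one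
   (`IsAlgClosed`, `(e : C) ≠ 0`: `HasEnoughRootsOfUnity`/`IsPrimitiveRoot` existence as in `Root/Res.lean`), `IsPrimitiveRoot.dvd_of_pow_eq_one`.]
PART B  (`ζ` a primitive `p`-th root of unity, `e = (p-1) e'`)
* `val_zeta_sub_one_pow'` : `v (ζ - 1)^(p-1) = v p`   (helper57 has `Flat.val_zeta_sub_one_pow` in `S56/Flat/Theta.lean`; reprove or copy here: `∏_{0<j<p} (1 - ζ^j) = p`, `(1 - ζ^j)/(1 - ζ)` is a unit).
* `val_tht_pow_sub` : `s • ζ = ζ^m` ⟹ `v (tht π s ^ e' - m) < 1`.   [`λ₀ = ζ - 1`, `s λ₀ / λ₀ = ∑_{k<m} ζ^k ≡ m`; `λ = π^e'`, `v λ = v λ₀` (`pow_left_inj₀`), `ε = λ/λ₀` a unit, `v (s ε - ε) < 1`;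
   `tht s ^ e' = s λ / λ = (s ε/ε)(s λ₀/λ₀)`.]
* `smul_zeta_of_mem_stabilizer` : `x ∈ Stab π` ⟹ `x • ζ = ζ`.   [`x ζ` is a `p`-th root of unity `= ζ^m`, `m < p` (`IsPrimitiveRoot.eq_pow_of_pow_eq_one`); `v (1 - m) < 1` ⟹ `p ∣ m - 1` ⟹ `m = 1`.]
-/

set_option autoImplicit false

namespace Fermat.Agent.S56.Font

open MulAction

variable {Γ : Type*} [Group Γ] {C : Type*} [Field C] [MulSemiringAction Γ C]
  {Γ₀ : Type*} [LinearOrderedCommGroupWithZero Γ₀] {v : Valuation C Γ₀} {p : ℕ} {π : C} {e : ℕ}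

namespace ThetaAux

theorem val_natCast_le (v : Valuation C Γ₀) (n : ℕ) : v (n : C) ≤ 1 := by
  induction n with
  | zero => simp
  | succ n ih =>
    rw [Nat.cast_succ]
    exact v.map_add_le ih (by simp)

theorem val_intCast_le (v : Valuation C Γ₀) (n : ℤ) : v (n : C) ≤ 1 := by
  rcases Int.eq_nat_or_neg n with ⟨m, rfl | rfl⟩
  · simpa using val_natCast_le v m
  · simpa using val_natCast_le v m

theorem val_natCast_eq_one (hp : p.Prime) (hv : v (p : C) < 1) {m : ℕ} (hm : ¬ p ∣ m) :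
    v (m : C) = 1 := by
  refine le_antisymm (val_natCast_le v m) (not_lt.1 fun hlt => ?_)
  have hcop : Nat.Coprime m p := ((Nat.Prime.coprime_iff_not_dvd hp).mpr hm).symm
  have hb := Nat.gcd_eq_gcd_ab m p
  rw [hcop.gcd_eq_one] at hb
  have hb' : (1 : C) = (m : C) * ((Nat.gcdA m p : ℤ) : C) + (p : C) * ((Nat.gcdB m p : ℤ) : C) := by
    have := congrArg (fun t : ℤ => (t : C)) hb
    push_cast at this
    exact this
  have h1 : v (1 : C) < 1 := by
    rw [hb']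
    refine lt_of_le_of_lt (v.map_add _ _) (max_lt ?_ ?_)
    · rw [map_mul]
      exact lt_of_le_of_lt (mul_le_of_le_one_right zero_le (val_intCast_le v _)) hlt
    · rw [map_mul]
      exact lt_of_le_of_lt (mul_le_of_le_one_right zero_le (val_intCast_le v _)) hv
  rw [map_one] at h1
  exact lt_irrefl _ h1

theorem val_eq_one_of_val_pow {y : C} {n : ℕ} (hn : n ≠ 0) (h1 : v y ^ n = 1) : v y = 1 := by
  rcases lt_trichotomy (v y) 1 with h2 | h2 | h2
  · exact absurd h1 (pow_lt_one₀ zero_le h2 hn).ne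
  · exact h2
  · exact absurd h1 (one_lt_pow₀ h2 hn).ne'

theorem ne_zero_of_not_dvd {m : ℕ} (hm : ¬ p ∣ m) : m ≠ 0 := by
  rintro rfl
  exact hm (dvd_zero p)

end ThetaAux

open ThetaAux

section A

theorem val_smul_sub_lt_one {ϖ : C} (h : IsSH Γ v ϖ) (s : Γ) {x : C} (hx : v x ≤ 1) :
    v (s • x - x) < 1 := by
  obtain ⟨y, hy, hxy⟩ := h.res x hx
  have e : s • x - x = s • (x - y) - (x - y) := by
    rw [smul_sub, hy s]; ring
  rw [e]
  exact lt_of_le_of_lt (Valuation.map_sub v _ _) (max_lt (by rw [h.inv]; exact hxy) hxy)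

theorem eq_one_of_pow_eq_one_of_near (hp : p.Prime) (hv : v (p : C) < 1) {m : ℕ} (hm : ¬ p ∣ m) {ξ : C}
    (hξ : ξ ^ m = 1) (hnear : v (ξ - 1) < 1) : ξ = 1 := by
  by_contra h1
  exact absurd (ResAux.val_sub_one (val_natCast_eq_one hp hv hm) hξ h1) hnear.ne

/-- core of (HENSEL-M) -/
theorem smul_eq_of_smul_pow_eq (hp : p.Prime) (h : IsSH Γ v (p : C)) {m : ℕ} (hm : ¬ p ∣ m)
    {y : C} (hy1 : v y = 1) {s : Γ} (hs : s • (y ^ m) = y ^ m) : s • y = y := by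
  have hy0 : y ≠ 0 := by
    intro h0
    rw [h0, map_zero] at hy1
    exact zero_ne_one hy1
  have h1 : (s • y / y) ^ m = 1 := by
    rw [div_pow, ← smul_pow', hs, div_self (pow_ne_zero m hy0)]
  have h2 : v (s • y / y - 1) < 1 := by
    have e : s • y / y - 1 = (s • y - y) / y := by field_simp
    rw [e, map_div₀, hy1, div_one]
    exact val_smul_sub_lt_one h s hy1.le
  have h3 := eq_one_of_pow_eq_one_of_near hp h.lt_one hm h1 h2
  rwa [div_eq_one_iff_eq hy0] at h3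

theorem fix0_of_pow_eq_one (hp : p.Prime) (h : IsSH Γ v (p : C)) {m : ℕ} (hm : ¬ p ∣ m) {ξ : C}
    (hξ : ξ ^ m = 1) : Fix0 Γ ξ := fun g =>
  smul_eq_of_smul_pow_eq hp h hm
    (ResAux.val_eq_one_of_pow_eq_one (ne_zero_of_not_dvd hm) hξ) (by rw [hξ, smul_one])

/-- (HENSEL-M) every `m`-th root (`p ∤ m`) of a unit of `C^N` lies in `C^N`. -/
theorem fixBy_root_of_unit (hp : p.Prime) (h : IsSH Γ v (p : C)) {m : ℕ} (hm : ¬ p ∣ m)
    {N : Subgroup Γ} {u y : C} (hu : FixBy N u) (hu1 : v u = 1) (hy : y ^ m = u) : FixBy N y :=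
  fun s hs => smul_eq_of_smul_pow_eq hp h hm
    (val_eq_one_of_val_pow (ne_zero_of_not_dvd hm) (by rw [← map_pow, hy, hu1]))
    (by rw [hy]; exact hu s hs)

theorem pi_ne_zero (h : IsSH Γ v (p : C)) (hπe : π ^ e = (p : C)) : π ≠ 0 :=
  ne_zero_of_pow' h (y := π) (n := e) (by rw [← map_pow, hπe])

theorem tht_pow (h : IsSH Γ v (p : C)) (hπe : π ^ e = (p : C)) (s : Γ) : tht π s ^ e = 1 := by
  rw [tht, div_pow, ← smul_pow', hπe, h.fix s, div_self h.ne_zero]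

theorem smul_pi (h : IsSH Γ v (p : C)) (hπe : π ^ e = (p : C)) (s : Γ) : s • π = tht π s * π := by
  rw [tht, div_mul_cancel₀ _ (pi_ne_zero h hπe)]

theorem val_tht (h : IsSH Γ v (p : C)) (hπe : π ^ e = (p : C)) (s : Γ) : v (tht π s) = 1 := by
  rw [tht, map_div₀, h.inv, div_self ((v.ne_zero_iff).2 (pi_ne_zero h hπe))]

theorem fix0_tht (hp : p.Prime) (h : IsSH Γ v (p : C)) (hπe : π ^ e = (p : C)) (hpe : ¬ p ∣ e) (s : Γ) :
    Fix0 Γ (tht π s) :=
  fix0_of_pow_eq_one hp h hpe (tht_pow h hπe s)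

theorem tht_mul (hp : p.Prime) (h : IsSH Γ v (p : C)) (hπe : π ^ e = (p : C)) (hpe : ¬ p ∣ e) (s t : Γ) :
    tht π (s * t) = tht π s * tht π t := by
  have h0 := pi_ne_zero h hπe
  have e1 : (s * t) • π = tht π s * tht π t * π := by
    rw [mul_smul, smul_pi h hπe t, smul_mul', fix0_tht hp h hπe hpe t s, smul_pi h hπe s]
    ring
  rw [tht, e1, mul_div_cancel_right₀ _ h0]

theorem tht_eq_one_iff (h : IsSH Γ v (p : C)) (hπe : π ^ e = (p : C)) (x : Γ) :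
    tht π x = 1 ↔ x ∈ stabilizer Γ π := by
  rw [tht, div_eq_one_iff_eq (pi_ne_zero h hπe), mem_stabilizer_iff]

theorem conj_mem_stabilizer (hp : p.Prime) (h : IsSH Γ v (p : C)) (hπe : π ^ e = (p : C))
    (hpe : ¬ p ∣ e) (s : Γ) {x : Γ} (hx : x ∈ stabilizer Γ π) : s * x * s⁻¹ ∈ stabilizer Γ π := by
  rw [← tht_eq_one_iff h hπe] at hx ⊢
  rw [tht_mul hp h hπe hpe, tht_mul hp h hπe hpe, hx, mul_one, ← tht_mul hp h hπe hpe,
    mul_inv_cancel, tht_eq_one_iff h hπe]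
  exact one_mem _

theorem dvd_of_tht_pow [IsAlgClosed C] (hp : p.Prime) (h : IsSH Γ v (p : C)) (hπe : π ^ e = (p : C))
    (hpe : ¬ p ∣ e) {m : ℕ} (hm : ∀ s : Γ, v (tht π s ^ m - 1) < 1) : e ∣ m := by
  classical
  have he0 : e ≠ 0 := ne_zero_of_not_dvd hpe
  have h0 := pi_ne_zero h hπe
  have hve : v (e : C) = 1 := val_natCast_eq_one hp h.lt_one hpe
  have : NeZero (e : C) := ⟨by
    intro h0
    rw [h0, map_zero] at hve
    exact zero_ne_one hve⟩
  have : NeZero e := ⟨he0⟩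
  obtain ⟨ζ, hζ⟩ := HasEnoughRootsOfUnity.exists_primitiveRoot C e
  have hone : ∀ s : Γ, tht π s ^ m = 1 := fun s =>
    eq_one_of_pow_eq_one_of_near hp h.lt_one hpe
      (by rw [← pow_mul, mul_comm, pow_mul, tht_pow h hπe, one_pow]) (hm s)
  have hcard : (orbF h π).card = e := (isTot_of_pow_eq h hπe).card_orbF h
  set T : Finset C := (orbF h π).image (fun z => z / π) with hT
  have hTcard : T.card = e := by
    rw [hT, Finset.card_image_of_injective _ (fun a b hab => by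
      simpa [div_left_inj' h0] using hab), hcard]
  have hsub : T ⊆ Polynomial.nthRootsFinset e (1 : C) := by
    intro z hz
    rw [hT, Finset.mem_image] at hz
    obtain ⟨w, hw, rfl⟩ := hz
    obtain ⟨g, rfl⟩ := (mem_orbF h).mp hw
    rw [Polynomial.mem_nthRootsFinset (Nat.pos_of_ne_zero he0)]
    exact tht_pow h hπe g
  have heq : T = Polynomial.nthRootsFinset e (1 : C) :=
    Finset.eq_of_subset_of_card_le hsub (by rw [hζ.card_nthRootsFinset, hTcard])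
  have hζT : ζ ∈ T := by
    rw [heq]; exact hζ.mem_nthRootsFinset (Nat.pos_of_ne_zero he0)
  rw [hT, Finset.mem_image] at hζT
  obtain ⟨w, hw, hwζ⟩ := hζT
  obtain ⟨g, rfl⟩ := (mem_orbF h).mp hw
  apply hζ.dvd_of_pow_eq_one
  rw [← hwζ]
  exact hone g

end A

end Fermat.Agent.S56.Font
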