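import Fermat.Agent.S56.Font.KT.Res
import Fermat.Agent.S56.Font.KT.LevBasic
import Fermat.Agent.S56.Font.KT.LevUniq
import Fermat.Agent.S56.Font.KT.Theta

/-!
# S56 / Font / KT / Lc : the leading coefficient map `lc i : U_i → Kap v` at a live level            (WP KT-LC)

`lc Γ v p π i u := rs v x` for a chosen `x` with `IsLev Γ v p π i u x` (`0` if there is none).  LIVE: `hl1 : ¬ p ∣ e + i`, `hl2 : (p-1) i < e`.
* `lc_eq` : `IsLev i u x` ⟹ `lc i u = rs v x`   (`IsLev.unique` + `rs_eq_iff`).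
* `lc_mul` (`IsLev.mul`, `rs_add`), `lc_mul_pow` (`IsLev.mul_pow`), `lc_eq_zero_iff` (`IsLev.isU_succ`, `IsU.isLev_zero`, `rs_eq_zero_iff`, `rs_zero`).
* `lc_smul` : `s ∈ Γ`: take `x` FIXED (`IsU.exists_isLev`); `IsLev.map` with `σ = MulSemiringAction.toRingHom Γ C s`, `ϑ = tht π s` (`smul_pi`), `σ x = x`; `σ L ⊆ L` by `conj_mem_stabilizer`
  (`t (s z) = s ((s⁻¹ t s) z)`); `rs_mul`, `rs_pow`, `val_tht`.
* `lc_frob` : `Φ : C →+* C` with `v ∘ Φ = v`, `Φ L ⊆ L`, `Φ π = π`, `v (Φ z - z^q) < 1` for integral `z`: `IsLev.map` with `ϑ = 1`, `rs v (Φ x) = rs v (x^q) = (rs v x)^q`.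
-/

set_option autoImplicit false

namespace Fermat.Agent.S56.Font

open MulAction

variable {Γ : Type*} [Group Γ] {C : Type*} [Field C] [MulSemiringAction Γ C]
  {Γ₀ : Type*} [LinearOrderedCommGroupWithZero Γ₀] {v : Valuation C Γ₀} {p : ℕ} {π : C} {e i : ℕ}
  {u u' x : C}

open scoped Classical in
/-- the leading coefficient at level `e + i`. -/
noncomputable def lc (Γ : Type*) [Group Γ] [MulSemiringAction Γ C] (v : Valuation C Γ₀) (p : ℕ) (π : C)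
    (i : ℕ) (u : C) : Kap v :=
  if h : ∃ x, IsLev Γ v p π i u x then rs v h.choose else 0

theorem lc_eq (hp : p.Prime) (h : IsSH Γ v (p : C)) (hπe : π ^ e = (p : C))
    (hl1 : ¬ p ∣ e + i) (hl2 : (p - 1) * i < e) (hx : IsLev Γ v p π i u x) :
    lc Γ v p π i u = rs v x := by
  have hex : ∃ x, IsLev Γ v p π i u x := ⟨x, hx⟩
  unfold lc
  rw [dif_pos hex, rs_eq_iff hex.choose_spec.2.2.1 hx.2.2.1]
  exact IsLev.unique hp h hπe hl1 hl2 hex.choose_spec hx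

theorem lc_mul (hp : p.Prime) (h : IsSH Γ v (p : C)) (hπe : π ^ e = (p : C))
    (hl1 : ¬ p ∣ e + i) (hl2 : (p - 1) * i < e) (hu : IsU Γ v p π i u) (hu' : IsU Γ v p π i u') :
    lc Γ v p π i (u * u') = lc Γ v p π i u + lc Γ v p π i u' := by
  obtain ⟨x, -, hx⟩ := hu.exists_isLev h hπe
  obtain ⟨x', -, hx'⟩ := hu'.exists_isLev h hπe
  rw [lc_eq hp h hπe hl1 hl2 hx, lc_eq hp h hπe hl1 hl2 hx',
    lc_eq hp h hπe hl1 hl2 (hx.mul h hπe hx'), rs_add hx.2.2.1 hx'.2.2.1]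

theorem lc_mul_pow (hp : p.Prime) (h : IsSH Γ v (p : C)) (hπe : π ^ e = (p : C))
    (hl1 : ¬ p ∣ e + i) (hl2 : (p - 1) * i < e) (hu : IsU Γ v p π i u) {z : C} (hz0 : z ≠ 0)
    (hz : InL Γ π z) : lc Γ v p π i (u * z ^ p) = lc Γ v p π i u := by
  obtain ⟨x, -, hx⟩ := hu.exists_isLev h hπe
  rw [lc_eq hp h hπe hl1 hl2 hx, lc_eq hp h hπe hl1 hl2 (hx.mul_pow hz0 hz)]

theorem lc_eq_zero_iff (hp : p.Prime) (h : IsSH Γ v (p : C)) (hπe : π ^ e = (p : C))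
    (hl1 : ¬ p ∣ e + i) (hl2 : (p - 1) * i < e) (hu : IsU Γ v p π i u) :
    lc Γ v p π i u = 0 ↔ IsU Γ v p π (i + 1) u := by
  obtain ⟨x, -, hx⟩ := hu.exists_isLev h hπe
  rw [lc_eq hp h hπe hl1 hl2 hx, rs_eq_zero_iff hx.2.2.1]
  constructor
  · exact hx.isU_succ h hπe
  · intro hu1
    have := IsLev.unique hp h hπe hl1 hl2 hx (hu1.isLev_zero h hπe)
    rwa [sub_zero] at this

theorem pi_ne_zero_lc (h : IsSH Γ v (p : C)) (hπe : π ^ e = (p : C)) : π ≠ 0 := by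
  rintro rfl
  rcases Nat.eq_zero_or_pos e with rfl | he
  · rw [pow_zero] at hπe
    have := h.lt_one
    rw [← hπe, map_one] at this
    exact lt_irrefl _ this
  · rw [zero_pow he.ne'] at hπe
    exact h.ne_zero hπe.symm

theorem inL_smul (hp : p.Prime) (h : IsSH Γ v (p : C)) (hπe : π ^ e = (p : C)) (hpe : ¬ p ∣ e)
    (s : Γ) {z : C} (hz : InL Γ π z) : InL Γ π (s • z) := by
  intro t ht
  have h1 := conj_mem_stabilizer hp h hπe hpe s⁻¹ ht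
  rw [inv_inv] at h1
  have h2 := hz _ h1
  calc t • s • z = s • ((s⁻¹ * t * s) • z) := by
        rw [← mul_smul, ← mul_smul]
        congr 1
        group
    _ = s • z := by rw [h2]

theorem isU_smul (hp : p.Prime) (h : IsSH Γ v (p : C)) (hπe : π ^ e = (p : C)) (hpe : ¬ p ∣ e)
    (hu : IsU Γ v p π i u) (s : Γ) : IsU Γ v p π i (s • u) := by
  obtain ⟨hu0, huL, y, hy0, hyL, hy⟩ := hu
  refine ⟨(smul_ne_zero_iff_ne s).2 hu0, inL_smul hp h hπe hpe s huL, s • y,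
    (smul_ne_zero_iff_ne s).2 hy0, inL_smul hp h hπe hpe s hyL, ?_⟩
  have h1 : s • u * (s • y) ^ p - 1 = s • (u * y ^ p - 1) := by
    rw [smul_sub, smul_mul', smul_pow', smul_one]
  rw [h1, h.inv]
  exact hy

theorem lc_smul (hp : p.Prime) (h : IsSH Γ v (p : C)) (hπe : π ^ e = (p : C)) (hpe : ¬ p ∣ e)
    (hl1 : ¬ p ∣ e + i) (hl2 : (p - 1) * i < e) (hu : IsU Γ v p π i u) (s : Γ) :
    lc Γ v p π i (s • u) = rs v (tht π s) ^ i * lc Γ v p π i u := by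
  obtain ⟨x, hxfix, hx⟩ := hu.exists_isLev h hπe
  have hm := hx.map (MulSemiringAction.toRingHom Γ C s) (fun z => h.inv s z)
    (fun z hz => inL_smul hp h hπe hpe s hz) (ϑ := tht π s) (smul_pi h hπe s)
    (pi_ne_zero_lc h hπe)
  have e1 : MulSemiringAction.toRingHom Γ C s u = s • u := rfl
  have e2 : MulSemiringAction.toRingHom Γ C s x = x := hxfix s
  rw [e1, e2] at hm
  have ht : v (tht π s) ≤ 1 := (val_tht h hπe s).le
  rw [lc_eq hp h hπe hl1 hl2 hx, lc_eq hp h hπe hl1 hl2 hm,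
    rs_mul (by rw [map_pow]; exact pow_le_one' ht i) hx.2.2.1, rs_pow ht]

theorem lc_frob (hp : p.Prime) (h : IsSH Γ v (p : C)) (hπe : π ^ e = (p : C))
    (hl1 : ¬ p ∣ e + i) (hl2 : (p - 1) * i < e) (hu : IsU Γ v p π i u)
    (Φ : C →+* C) (hΦv : ∀ z, v (Φ z) = v z) (hΦL : ∀ z, InL Γ π z → InL Γ π (Φ z)) (hΦπ : Φ π = π)
    {q : ℕ} (hΦq : ∀ z, v z ≤ 1 → v (Φ z - z ^ q) < 1) :
    lc Γ v p π i (Φ u) = lc Γ v p π i u ^ q := by
  obtain ⟨x, -, hx⟩ := hu.exists_isLev h hπe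
  have hm := hx.map Φ hΦv hΦL (ϑ := 1) (by rw [hΦπ, one_mul]) (pi_ne_zero_lc h hπe)
  rw [one_pow, one_mul] at hm
  have hx1 := hx.2.2.1
  rw [lc_eq hp h hπe hl1 hl2 hx, lc_eq hp h hπe hl1 hl2 hm, ← rs_pow hx1,
    rs_eq_iff (by rw [hΦv]; exact hx1) (by rw [map_pow]; exact pow_le_one' hx1 q)]
  exact hΦq x hx1

end Fermat.Agent.S56.Font
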