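import Fermat.Agent.S56.Font.KT.Defs

/-!
# S56 / Font / KT / Res : the reduction map `rs v : C → Kap v`            (WP KT-RES)

All statements are immediate from `IsLocalRing.residue` being a ring hom with kernel the maximal ideal
(`Valuation.mem_valuationSubring_iff`, `ValuationSubring.valuation_lt_one_iff`, `IsLocalRing.residue_eq_zero_iff`; note that
`v.valuationSubring.valuation` is only EQUIVALENT to `v`: use `Valuation.isEquiv_valuation_valuationSubring` or argue directly: a non unit `a` of
`v.valuationSubring` has `v a < 1` because otherwise `a⁻¹` is integral).  `dif_pos`.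
-/

set_option autoImplicit false

namespace Fermat.Agent.S56.Font

variable {C : Type*} [Field C] {Γ₀ : Type*} [LinearOrderedCommGroupWithZero Γ₀] {v : Valuation C Γ₀}

theorem rs_of_le {x : C} (hx : v x ≤ 1) : rs v x =
    IsLocalRing.residue ↥v.valuationSubring ⟨x, (Valuation.mem_valuationSubring_iff v x).2 hx⟩ :=
  dif_pos hx

theorem rs_eq_zero_iff {x : C} (hx : v x ≤ 1) : rs v x = 0 ↔ v x < 1 := by
  rw [rs_of_le hx, IsLocalRing.residue_eq_zero_iff, IsLocalRing.mem_maximalIdeal,
    mem_nonunits_iff, (Valuation.valuationSubring.integers v).isUnit_iff_valuation_eq_one]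
  change ¬ v x = 1 ↔ _
  exact ⟨fun h => lt_of_le_of_ne hx h, fun h => h.ne⟩

theorem rs_add {x y : C} (hx : v x ≤ 1) (hy : v y ≤ 1) : rs v (x + y) = rs v x + rs v y := by
  have hxy : v (x + y) ≤ 1 := (v.map_add x y).trans (max_le hx hy)
  rw [rs_of_le hx, rs_of_le hy, rs_of_le hxy, ← map_add]
  rfl

theorem rs_sub {x y : C} (hx : v x ≤ 1) (hy : v y ≤ 1) : rs v (x - y) = rs v x - rs v y := by
  have hxy : v (x - y) ≤ 1 := (v.map_sub x y).trans (max_le hx hy)
  rw [rs_of_le hx, rs_of_le hy, rs_of_le hxy, ← map_sub]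
  rfl

theorem rs_mul {x y : C} (hx : v x ≤ 1) (hy : v y ≤ 1) : rs v (x * y) = rs v x * rs v y := by
  have hxy : v (x * y) ≤ 1 := by
    rw [map_mul]
    exact mul_le_one' hx hy
  rw [rs_of_le hx, rs_of_le hy, rs_of_le hxy, ← map_mul]
  rfl

theorem rs_one : rs v (1 : C) = 1 := by
  rw [rs_of_le (by rw [map_one]), ← map_one (IsLocalRing.residue ↥v.valuationSubring)]
  rfl

theorem rs_zero : rs v (0 : C) = 0 := by
  rw [rs_of_le (by rw [map_zero]; exact zero_le), ← map_zero (IsLocalRing.residue ↥v.valuationSubring)]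
  rfl

theorem rs_pow {x : C} (hx : v x ≤ 1) (n : ℕ) : rs v (x ^ n) = rs v x ^ n := by
  induction n with
  | zero => rw [pow_zero, pow_zero, rs_one]
  | succ n ih =>
    rw [pow_succ, pow_succ, rs_mul (by rw [map_pow]; exact pow_le_one' hx n) hx, ih]

theorem rs_natCast (n : ℕ) : rs v (n : C) = (n : Kap v) := by
  induction n with
  | zero => rw [Nat.cast_zero, Nat.cast_zero, rs_zero]
  | succ n ih =>
    have hn : v (n : C) ≤ 1 := by
      have := (Valuation.valuationSubring.integers v).map_le_one (n : ↥v.valuationSubring)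
      simpa using this
    rw [Nat.cast_succ, Nat.cast_succ, rs_add hn (by rw [map_one]), ih, rs_one]

theorem rs_eq_iff {x y : C} (hx : v x ≤ 1) (hy : v y ≤ 1) : rs v x = rs v y ↔ v (x - y) < 1 := by
  have hxy : v (x - y) ≤ 1 := (v.map_sub x y).trans (max_le hx hy)
  rw [← rs_eq_zero_iff hxy, rs_sub hx hy, sub_eq_zero]

/-- the residue field has characteristic `p`. -/
theorem charP_kap {p : ℕ} (hp : p.Prime) (hv : v (p : C) < 1) : CharP (Kap v) p := by
  have h0 : ((p : ℕ) : Kap v) = 0 := by
    rw [← rs_natCast, rs_eq_zero_iff hv.le]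
    exact hv
  exact (CharP.charP_iff_prime_eq_zero hp).2 h0

end Fermat.Agent.S56.Font
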